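import Mathlib.RingTheory.PicardGroup
import Fermat.Agent.Pic.Hilb.Invertible
import Fermat.Agent.Pic.Repr.Bridge

/-!
# Line bundles on an affine open

Sections over a basic open are the localisation of the sections over the affine, linear maps of
sections extend uniquely to maps over all smaller opens, and the sections form an invertible module.
-/

noncomputable section

universe u

open CategoryTheory TopologicalSpace Opposite AlgebraicGeometry TensorProduct
open Fermat.Agent.Pic.Repr

namespace Fermat.Agent.Pic.Bridge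

variable {X : Scheme.{u}}

theorem isUnit_resF_basicOpen {U V : X.Opens} (f : Γ(X, U)) (h : V ≤ X.basicOpen f) :
    IsUnit (resF (h.trans (X.basicOpen_le f)) f) := by
  have := isUnit_resF h (X.toRingedSpace.isUnit_res_basicOpen f)
  exact (resF_resF h (X.basicOpen_le f) f) ▸ this

theorem resF_pow {V V' : X.Opens} (h : V ≤ V') (r : Γ(X, V')) (n : ℕ) :
    resF h (r ^ n) = resF h r ^ n :=
  map_pow (X.presheaf.map (homOfLE h).op).hom r n

theorem resF_sub {V V' : X.Opens} (h : V ≤ V') (r s : Γ(X, V')) :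
    resF h (r - s) = resF h r - resF h s :=
  map_sub (X.presheaf.map (homOfLE h).op).hom r s

theorem resF_zero {V V' : X.Opens} (h : V ≤ V') : resF h (0 : Γ(X, V')) = 0 :=
  map_zero (X.presheaf.map (homOfLE h).op).hom

theorem resF_add {V V' : X.Opens} (h : V ≤ V') (r s : Γ(X, V')) :
    resF h (r + s) = resF h r + resF h s :=
  map_add (X.presheaf.map (homOfLE h).op).hom r s

theorem res_sub (M : X.Modules) {V V' : X.Opens} (h : V ≤ V') (m n : Γ(M, V')) :
    res M h (m - n) = res M h m - res M h n :=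
  (M.presheaf.map (homOfLE h).op).hom.map_sub m n

theorem basicOpen_resF {V V' : X.Opens} (h : V ≤ V') (f : Γ(X, V')) :
    X.basicOpen (resF h f) = V ⊓ X.basicOpen f :=
  X.basicOpen_res f (homOfLE h).op

/-- Functions vanishing on a basic open are killed by a power of the function. -/
theorem exists_pow_mul_eq_zero {V D : X.Opens} (hV : IsAffineOpen V) (f : Γ(X, V))
    (hD : D = X.basicOpen f) (hDV : D ≤ V) (a : Γ(X, V)) (h : resF hDV a = 0) :
    ∃ n : ℕ, f ^ n * a = 0 := by
  subst hD
  have := hV.isLocalization_basicOpen f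
  obtain ⟨⟨_, n, rfl⟩, hn⟩ :=
    (IsLocalization.map_eq_zero_iff (Submonoid.powers f) Γ(X, X.basicOpen f) a).1 h
  exact ⟨n, hn⟩

/-- Functions on a basic open extend after multiplication by a power of the function. -/
theorem exists_resF_eq_pow_mul {V D : X.Opens} (hV : IsAffineOpen V) (f : Γ(X, V))
    (hD : D = X.basicOpen f) (hDV : D ≤ V) (b : Γ(X, D)) :
    ∃ (n : ℕ) (a : Γ(X, V)), resF hDV a = resF hDV f ^ n * b := by
  subst hD
  have := hV.isLocalization_basicOpen f
  obtain ⟨⟨a, ⟨_, n, rfl⟩⟩, hn⟩ := IsLocalization.surj (Submonoid.powers f) b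
  refine ⟨n, a, ?_⟩
  rw [← resF_pow, mul_comm]
  exact hn.symm

/-- A section of the structure module as a function. -/
def unitVal {V : X.Opens} (r : Γ(unitMod X, V)) : Γ(X, V) := r

theorem unitVal_smul {V : X.Opens} (a : Γ(X, V)) (r : Γ(unitMod X, V)) :
    unitVal (a • r) = a * unitVal r := rfl

theorem unitVal_res {V V' : X.Opens} (h : V ≤ V') (r : Γ(unitMod X, V')) :
    unitVal (res (unitMod X) h r) = resF h (unitVal r) := rfl

theorem unitVal_injective {V : X.Opens} : Function.Injective (unitVal (X := X) (V := V)) :=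
  fun _ _ h => h

/-- The map sending a generator to a given section. -/
def linOnOfGen {M N : X.Modules} {V : X.Opens} {e : Γ(M, V)} (he : IsGen M V e) (n : Γ(N, V)) :
    LinOn V M N where
  app W hW :=
    (LinearMap.toSpanSingleton Γ(X, W) Γ(N, W) (res N hW n)).comp
      (LinearEquiv.ofBijective (LinearMap.toSpanSingleton Γ(X, W) Γ(M, W) (res M hW e))
        (he W hW)).symm.toLinearMap
  natural {W W'} hW i m := by
    obtain ⟨r, rfl⟩ := (he W' hW).2 m
    have h1 : ∀ (W : X.Opens) (hW : W ≤ V) (r : Γ(X, W)),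
        (LinearEquiv.ofBijective (LinearMap.toSpanSingleton Γ(X, W) Γ(M, W) (res M hW e))
          (he W hW)).symm (r • res M hW e) = r := fun W hW r =>
      (LinearEquiv.ofBijective (LinearMap.toSpanSingleton Γ(X, W) Γ(M, W) (res M hW e))
        (he W hW)).symm_apply_apply r
    simp only [LinearMap.comp_apply, LinearEquiv.coe_coe, res_smul, res_res, h1,
      LinearMap.toSpanSingleton_apply]

theorem linOnOfGen_app {M N : X.Modules} {V : X.Opens} {e : Γ(M, V)} (he : IsGen M V e)
    (n : Γ(N, V)) (W : X.Opens) (hW : W ≤ V) :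
    (linOnOfGen he n).app W hW (res M hW e) = res N hW n := by
  show LinearMap.toSpanSingleton Γ(X, W) Γ(N, W) (res N hW n)
    ((LinearEquiv.ofBijective _ (he W hW)).symm (res M hW e)) = _
  rw [show (LinearEquiv.ofBijective (LinearMap.toSpanSingleton Γ(X, W) Γ(M, W) (res M hW e))
    (he W hW)).symm (res M hW e) = 1 from (LinearEquiv.symm_apply_eq _).2 (one_smul _ _).symm]
  exact one_smul _ _

theorem linOn_eq_of_gen {M N : X.Modules} {V W : X.Opens} {e : Γ(M, V)} (he : IsGen M V e)
    (hW : W ≤ V) (φ ψ : Γ(M, W) →ₗ[Γ(X, W)] Γ(N, W))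
    (h : φ (res M hW e) = ψ (res M hW e)) : φ = ψ := by
  refine LinearMap.ext fun m => ?_
  obtain ⟨r, rfl⟩ := (he W hW).2 m
  simp only [map_smul, h]

section Affine

variable {M N : X.Modules} {U : X.Opens} (hU : IsAffineOpen U) (hM : IsLineOn M U)

include hU hM in
/-- An affine open is covered by finitely many basic opens on which the line bundle has
generators. -/
theorem exists_gens_affine :
    ∃ (ι : Type u) (_ : Finite ι) (g : ι → Γ(X, U)),
      (∀ x ∈ U, ∃ i, x ∈ X.basicOpen (g i)) ∧
        ∀ i, ∃ e : Γ(M, X.basicOpen (g i)), IsGen M (X.basicOpen (g i)) e := by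
  choose V hxV hVU e he using hM
  have hex : ∀ x : U, ∃ f : Γ(X, U), X.basicOpen f ≤ V x.1 x.2 ∧ x.1 ∈ X.basicOpen f := fun x =>
    hU.exists_basicOpen_le ⟨x.1, hxV x.1 x.2⟩ x.2
  choose f hfV hxf using hex
  obtain ⟨s, hs⟩ := hU.isCompact.elim_finite_subcover (fun x : U => (X.basicOpen (f x) : Set X))
    (fun x => (X.basicOpen (f x)).isOpen) fun x hx => Set.mem_iUnion.2 ⟨⟨x, hx⟩, hxf ⟨x, hx⟩⟩
  refine ⟨s, inferInstance, fun i => f i.1, fun x hx => ?_, fun i => ⟨_, (he _ _).mono (hfV i.1)⟩⟩
  obtain ⟨i, hi, hxi⟩ := Set.mem_iUnion₂.1 (hs hx)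
  exact ⟨⟨i, hi⟩, hxi⟩

include hU hM in
/-- Sections dying on a basic open are killed by a power of the function. -/
theorem exists_pow_smul_eq_zero (f : Γ(X, U)) (m : Γ(M, U))
    (hm : res M (X.basicOpen_le f) m = 0) : ∃ n : ℕ, f ^ n • m = 0 := by
  obtain ⟨ι, hι, g, hcov, hgen⟩ := exists_gens_affine hU hM
  have hi : ∀ i, ∃ n : ℕ, res M (X.basicOpen_le (g i)) (f ^ n • m) = 0 := fun i => by
    obtain ⟨e, he⟩ := hgen i
    set hle := X.basicOpen_le (g i)
    obtain ⟨a, ha⟩ := (he _ le_rfl).2 (res M hle m)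
    simp only [res_self] at ha
    have hD : X.basicOpen (g i) ⊓ X.basicOpen f = X.basicOpen (resF hle f) :=
      (basicOpen_resF hle f).symm
    have h0 : resF (inf_le_left : X.basicOpen (g i) ⊓ X.basicOpen f ≤ _) a = 0 := by
      refine (he _ inf_le_left).1 ?_
      simp only [zero_smul]
      rw [← res_smul, ha, res_res, ← res_res M (inf_le_right : _ ≤ X.basicOpen f)
          (X.basicOpen_le f),
        hm, res_zero]
    obtain ⟨n, hn⟩ := exists_pow_mul_eq_zero (hU.basicOpen (g i)) _ hD inf_le_left a h0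
    refine ⟨n, ?_⟩
    rw [res_smul, resF_pow, ← ha, smul_smul, hn, zero_smul]
  choose n hn using hi
  have := Fintype.ofFinite ι
  refine ⟨Finset.univ.sup n, eq_of_locally M _ _ fun x hx => ?_⟩
  obtain ⟨i, hi⟩ := hcov x hx
  refine ⟨_, X.basicOpen_le (g i), hi, ?_⟩
  rw [res_zero, ← Nat.sub_add_cancel (Finset.le_sup (f := n) (Finset.mem_univ i)), pow_add,
    mul_smul, res_smul, hn i, smul_zero]

include hU hM in
/-- Sections over a basic open extend after multiplication by a power of the function. -/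
theorem exists_res_eq_pow_smul (f : Γ(X, U)) (z : Γ(M, X.basicOpen f)) :
    ∃ (n : ℕ) (s : Γ(M, U)),
      res M (X.basicOpen_le f) s = resF (X.basicOpen_le f) f ^ n • z := by
  obtain ⟨ι, hι, g, hcov, hgen⟩ := exists_gens_affine hU hM
  have := Fintype.ofFinite ι
  have hi : ∀ i, ∃ (n : ℕ) (s : Γ(M, X.basicOpen (g i))),
      res M (inf_le_left : X.basicOpen (g i) ⊓ X.basicOpen f ≤ _) s =
        resF (inf_le_right.trans (X.basicOpen_le f)) f ^ n • res M inf_le_right z := fun i => by
    obtain ⟨e, he⟩ := hgen i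
    obtain ⟨b, hb⟩ := (he _ (inf_le_left : X.basicOpen (g i) ⊓ X.basicOpen f ≤ _)).2
      (res M inf_le_right z)
    obtain ⟨n, a, ha⟩ := exists_resF_eq_pow_mul (hU.basicOpen (g i))
      (resF (X.basicOpen_le (g i)) f) (basicOpen_resF _ f).symm inf_le_left b
    exact ⟨n, a • e, by rw [res_smul, ha, resF_resF, mul_smul]; exact congrArg _ hb⟩
  choose n s hs using hi
  set N := Finset.univ.sup n with hN
  let s' : ∀ i, Γ(M, X.basicOpen (g i)) := fun i => resF (X.basicOpen_le (g i)) f ^ (N - n i) • s i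
  have hs' : ∀ i, res M (inf_le_left : X.basicOpen (g i) ⊓ X.basicOpen f ≤ _) (s' i) =
      resF (inf_le_right.trans (X.basicOpen_le f)) f ^ N • res M inf_le_right z := fun i => by
    show res M _ (resF _ f ^ (N - n i) • s i) = _
    rw [res_smul, resF_pow, resF_resF, hs i, smul_smul, ← pow_add,
      Nat.sub_add_cancel (Finset.le_sup (f := n) (Finset.mem_univ i))]
  have hij : ∀ i j, ∃ k : ℕ, resF (inf_le_left.trans (X.basicOpen_le (g i))) f ^ k •
      (res M (inf_le_left : X.basicOpen (g i) ⊓ X.basicOpen (g j) ≤ _) (s' i) -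
        res M inf_le_right (s' j)) = (0 : Γ(M, X.basicOpen (g i) ⊓ X.basicOpen (g j))) :=
      fun i j => by
    have haff : IsAffineOpen (X.basicOpen (g i) ⊓ X.basicOpen (g j)) := by
      rw [← X.basicOpen_mul]
      exact hU.basicOpen _
    obtain ⟨k, hk⟩ := exists_pow_smul_eq_zero haff
      (hM.mono (inf_le_left.trans (X.basicOpen_le (g i))))
      (resF (inf_le_left.trans (X.basicOpen_le (g i))) f)
      (res M (inf_le_left : X.basicOpen (g i) ⊓ X.basicOpen (g j) ≤ _) (s' i) -
        res M inf_le_right (s' j)) (by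
        have hlei : X.basicOpen (resF (inf_le_left.trans (X.basicOpen_le (g i))) f :
            Γ(X, X.basicOpen (g i) ⊓ X.basicOpen (g j))) ≤ X.basicOpen (g i) ⊓ X.basicOpen f := by
          rw [basicOpen_resF]; exact inf_le_inf_right _ inf_le_left
        have hlej : X.basicOpen (resF (inf_le_left.trans (X.basicOpen_le (g i))) f :
            Γ(X, X.basicOpen (g i) ⊓ X.basicOpen (g j))) ≤ X.basicOpen (g j) ⊓ X.basicOpen f := by
          rw [basicOpen_resF]; exact inf_le_inf_right _ inf_le_right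
        rw [res_sub, res_res, res_res, ← res_res M hlei inf_le_left, hs' i,
          ← res_res M hlej inf_le_left (s' j), hs' j, res_smul, res_smul, resF_pow, resF_pow,
          resF_resF, resF_resF, res_res, res_res, sub_self])
    exact ⟨k, hk⟩
  choose k hk using hij
  set K := Finset.univ.sup fun p : ι × ι => k p.1 p.2
  obtain ⟨t, ht⟩ := Repr.exists_glue M (V := U) (fun i => X.basicOpen (g i))
    (fun i => X.basicOpen_le (g i)) hcov (fun i => resF (X.basicOpen_le (g i)) f ^ K • s' i)
    fun i j => by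
      rw [res_smul M inf_le_left _ (s' i), res_smul M inf_le_right _ (s' j), resF_pow, resF_pow,
        resF_resF, resF_resF]
      have hK : k i j ≤ K :=
        Finset.le_sup (f := fun p : ι × ι => k p.1 p.2) (Finset.mem_univ (i, j))
      rw [← sub_eq_zero, ← smul_sub, ← Nat.sub_add_cancel hK, pow_add, mul_smul, hk i j, smul_zero]
  refine ⟨K + N, t, eq_of_locally M _ _ fun x hx => ?_⟩
  obtain ⟨i, hi⟩ := hcov x (X.basicOpen_le f hx)
  refine ⟨X.basicOpen (g i) ⊓ X.basicOpen f, inf_le_right, ⟨hi, hx⟩, ?_⟩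
  rw [res_res, ← res_res M (inf_le_left : X.basicOpen (g i) ⊓ X.basicOpen f ≤ _)
    (X.basicOpen_le (g i)), ht i, res_smul, hs' i, res_smul, resF_pow, resF_pow, resF_resF,
    resF_resF, smul_smul, ← pow_add]

include hU hM in
/-- An affine open is covered by finitely many basic opens on which sections over the affine
generate. -/
theorem exists_gens_sections :
    ∃ (ι : Type u) (_ : Finite ι) (g : ι → Γ(X, U)) (s : ι → Γ(M, U)),
      (∀ x ∈ U, ∃ i, x ∈ X.basicOpen (g i)) ∧
        ∀ i, IsGen M (X.basicOpen (g i)) (res M (X.basicOpen_le (g i)) (s i)) := by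
  obtain ⟨ι, hι, g, hcov, hgen⟩ := exists_gens_affine hU hM
  choose e he using hgen
  choose n s hs using fun i => exists_res_eq_pow_smul hU hM (g i) (e i)
  refine ⟨ι, hι, g, s, hcov, fun i V hV => ?_⟩
  have hu := isUnit_resF hV ((isUnit_resF_basicOpen (g i) le_rfl).pow (n i))
  rw [hs i]
  convert ((he i V hV).comp (hu.unit.mulRight.bijective)) using 1
  funext r
  simp [res_smul, smul_smul]

include hU hM in
/-- Two maps agreeing on the sections over the affine agree. -/
theorem linOn_ext_affine (φ ψ : LinOn U M N)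
    (h : ∀ m, φ.app U le_rfl m = ψ.app U le_rfl m) (V : X.Opens) (hV : V ≤ U) (m : Γ(M, V)) :
    φ.app V hV m = ψ.app V hV m := by
  obtain ⟨ι, -, g, s, hcov, hs⟩ := exists_gens_sections hU hM
  refine eq_of_locally N _ _ fun x hx => ?_
  obtain ⟨i, hi⟩ := hcov x (hV hx)
  refine ⟨V ⊓ X.basicOpen (g i), inf_le_left, ⟨hx, hi⟩, ?_⟩
  rw [← φ.natural hV, ← ψ.natural hV]
  have e : φ.app (V ⊓ X.basicOpen (g i)) (inf_le_left.trans hV) =
      ψ.app (V ⊓ X.basicOpen (g i)) (inf_le_left.trans hV) :=
    linOn_eq_of_gen (hs i) inf_le_right _ _ (by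
      rw [res_res, φ.natural le_rfl, ψ.natural le_rfl, h])
  rw [e]

include hU hM in
/-- A linear map of sections over the affine extends to all smaller opens. -/
theorem exists_linOn_app (φ : Γ(M, U) →ₗ[Γ(X, U)] Γ(N, U)) :
    ∃ ψ : LinOn U M N, ψ.app U le_rfl = φ := by
  obtain ⟨ι, -, g, s, hcov, hs⟩ := exists_gens_sections hU hM
  let ψ : ∀ i, LinOn (X.basicOpen (g i)) M N := fun i =>
    linOnOfGen (hs i) (res N (X.basicOpen_le (g i)) (φ (s i)))
  have key : ∀ (i : ι) (m : Γ(M, U)), (ψ i).app _ le_rfl (res M (X.basicOpen_le (g i)) m) =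
      res N (X.basicOpen_le (g i)) (φ m) := by
    intro i m
    set hle := X.basicOpen_le (g i)
    obtain ⟨c, hc⟩ := (hs i _ le_rfl).2 (res M hle m)
    simp only [res_self] at hc
    obtain ⟨p, a, ha⟩ := exists_resF_eq_pow_mul hU (g i) rfl hle c
    obtain ⟨q, hq⟩ := exists_pow_smul_eq_zero hU hM (g i) (g i ^ p • m - a • s i) (by
      rw [res_sub, res_smul, res_smul, resF_pow, ha, mul_smul, hc, sub_self])
    have hu : IsUnit (resF hle (g i) ^ (q + p)) := (isUnit_resF_basicOpen (g i) le_rfl).pow _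
    refine hu.smul_left_cancel.1 ?_
    rw [smul_sub, sub_eq_zero, smul_smul, smul_smul, ← pow_add] at hq
    have hq' := congrArg (fun x => res N hle (φ x)) hq
    simp only [map_smul, res_smul, resF_pow, resF_mul] at hq'
    rw [hq', ha, ← hc, map_smul]
    have h1 := linOnOfGen_app (hs i) (res N hle (φ (s i))) _ le_rfl
    rw [res_self, res_self] at h1
    rw [h1, smul_smul, pow_add, mul_assoc]
  obtain ⟨Ψ, hΨ⟩ := LinOn.exists_glue (M := M) (N := N) (W := U) (fun i => X.basicOpen (g i))
    (fun i => X.basicOpen_le (g i)) hcov ψ fun i j V ha hb m => by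
      have e : (ψ i).app V ha = (ψ j).app V hb := linOn_eq_of_gen (hs i) ha _ _ (by
        rw [(ψ i).natural le_rfl ha, key, res_res, res_res,
          ← res_res M hb (X.basicOpen_le (g j)), (ψ j).natural le_rfl hb, key, res_res])
      rw [e]
  refine ⟨Ψ, LinearMap.ext fun m => eq_of_locally N _ _ fun x hx => ?_⟩
  obtain ⟨i, hi⟩ := hcov x hx
  refine ⟨_, X.basicOpen_le (g i), hi, ?_⟩
  rw [← Ψ.natural le_rfl, hΨ i _ le_rfl, key]

include hU hM in
/-- A functional on the affine taking a given generator over `D(f)` to a power of `f`. -/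
theorem exists_dual (f : Γ(X, U)) (e : Γ(M, X.basicOpen f)) (he : IsGen M (X.basicOpen f) e) :
    ∃ (k : ℕ) (ψ : LinOn U M (unitMod X)),
      unitVal (ψ.app _ (X.basicOpen_le f) e) = resF (X.basicOpen_le f) f ^ k := by
  obtain ⟨ι, hι, g, hcov, hgen⟩ := exists_gens_affine hU hM
  have := Fintype.ofFinite ι
  choose d hd using hgen
  have hle : ∀ i, X.basicOpen (g i) ≤ U := fun i => X.basicOpen_le (g i)
  have hi : ∀ i, ∃ (n : ℕ) (a : Γ(X, X.basicOpen (g i))),
      resF (inf_le_left : X.basicOpen (g i) ⊓ X.basicOpen f ≤ _) a •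
          res M (inf_le_right : X.basicOpen (g i) ⊓ X.basicOpen f ≤ X.basicOpen f) e =
        resF (inf_le_left.trans (hle i)) f ^ n •
          res M (inf_le_left : X.basicOpen (g i) ⊓ X.basicOpen f ≤ X.basicOpen (g i)) (d i) :=
    fun i => by
    obtain ⟨b, hb⟩ := (he _ (inf_le_right : X.basicOpen (g i) ⊓ X.basicOpen f ≤ _)).2
      (res M inf_le_left (d i))
    obtain ⟨n, a, ha⟩ := exists_resF_eq_pow_mul (hU.basicOpen (g i)) (resF (hle i) f)
      (basicOpen_resF _ f).symm inf_le_left b
    exact ⟨n, a, by rw [ha, resF_resF, mul_smul]; exact congrArg _ hb⟩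
  choose n a ha using hi
  set K := Finset.univ.sup n
  let φ : ∀ i, LinOn (X.basicOpen (g i)) M (unitMod X) := fun i =>
    linOnOfGen (hd i) (resF (hle i) f ^ (K - n i) * a i : Γ(X, X.basicOpen (g i)))
  have hφd : ∀ i (W : X.Opens) (hW : W ≤ X.basicOpen (g i)) (b : Γ(X, W)),
      unitVal ((φ i).app W hW (b • res M hW (d i))) =
        b * (resF hW (resF (hle i) f) ^ (K - n i) * resF hW (a i)) := fun i W hW b => by
    rw [map_smul, unitVal_smul, linOnOfGen_app (N := unitMod X) (hd i)
      (resF (hle i) f ^ (K - n i) * a i : Γ(X, X.basicOpen (g i))) W hW]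
    refine congrArg (b * ·) ?_
    show resF hW (resF (hle i) f ^ (K - n i) * a i) = _
    rw [resF_mul, resF_pow]
  have hval : ∀ i, unitVal ((φ i).app _ (inf_le_left : X.basicOpen (g i) ⊓ X.basicOpen f ≤ _)
      (res M inf_le_right e)) = resF (inf_le_left.trans (hle i)) f ^ K := fun i => by
    obtain ⟨b, hb⟩ := (hd i _ (inf_le_left : X.basicOpen (g i) ⊓ X.basicOpen f ≤ _)).2
      (res M inf_le_right e)
    have h2 : resF (inf_le_left : X.basicOpen (g i) ⊓ X.basicOpen f ≤ _) (a i) * b =
        resF (inf_le_left.trans (hle i)) f ^ n i := by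
      refine (hd i _ inf_le_left).1 ?_
      simp only [mul_smul]
      exact (congrArg _ hb).trans (ha i)
    rw [← hb, hφd, resF_resF, mul_left_comm, mul_comm b, h2, ← pow_add,
      Nat.sub_add_cancel (Finset.le_sup (f := n) (Finset.mem_univ i))]
  have hij : ∀ i j, ∃ k : ℕ, resF (inf_le_left.trans (hle i)) f ^ k *
      (unitVal ((φ i).app _ (inf_le_left : X.basicOpen (g i) ⊓ X.basicOpen (g j) ≤ _)
          (res M inf_le_left (d i))) -
        unitVal ((φ j).app _ inf_le_right (res M inf_le_left (d i)))) = 0 := fun i j => by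
    set W := X.basicOpen (g i) ⊓ X.basicOpen (g j)
    have haff : IsAffineOpen W := by
      show IsAffineOpen (_ ⊓ _)
      rw [← X.basicOpen_mul]
      exact hU.basicOpen _
    refine exists_pow_mul_eq_zero haff _
      (basicOpen_resF (inf_le_left.trans (hle i)) f).symm (inf_le_left : W ⊓ X.basicOpen f ≤ W) _ ?_
    have hv : ∀ (i : ι) (hWi : W ≤ X.basicOpen (g i)),
        unitVal ((φ i).app (W ⊓ X.basicOpen f) (inf_le_left.trans hWi) (res M inf_le_right e)) =
          resF (inf_le_left.trans (hWi.trans (hle i))) f ^ K := fun i hWi => by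
      rw [← res_res M (inf_le_inf_right _ hWi)
        (inf_le_right : X.basicOpen (g i) ⊓ X.basicOpen f ≤ _), (φ i).natural inf_le_left,
        unitVal_res, hval, resF_pow, resF_resF]
    have e1 : (φ i).app (W ⊓ X.basicOpen f) (inf_le_left.trans inf_le_left) =
        (φ j).app (W ⊓ X.basicOpen f) (inf_le_left.trans inf_le_right) :=
      linOn_eq_of_gen he inf_le_right _ _
        (unitVal_injective ((hv i inf_le_left).trans (hv j inf_le_right).symm))
    rw [resF_sub, sub_eq_zero, ← unitVal_res, ← unitVal_res, ← (φ i).natural inf_le_left,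
      ← (φ j).natural inf_le_right, e1]
  choose k hk using hij
  set L := Finset.univ.sup fun p : ι × ι => k p.1 p.2
  obtain ⟨Ψ, hΨ⟩ := LinOn.exists_glue (M := M) (N := unitMod X) (W := U)
    (fun i => X.basicOpen (g i)) hle hcov (fun i => LinOn.smul (resF (hle i) f ^ L) (φ i))
    fun i j V ha hb m => by
      have e : (LinOn.smul (resF (hle i) f ^ L) (φ i)).app V ha =
          (LinOn.smul (resF (hle j) f ^ L) (φ j)).app V hb := linOn_eq_of_gen (hd i) ha _ _ (by
        have hL : k i j ≤ L :=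
          Finset.le_sup (f := fun p : ι × ι => k p.1 p.2) (Finset.mem_univ (i, j))
        have h1 : resF (inf_le_left.trans (hle i)) f ^ L *
            (unitVal ((φ i).app _ (inf_le_left : X.basicOpen (g i) ⊓ X.basicOpen (g j) ≤ _)
                (res M inf_le_left (d i))) -
              unitVal ((φ j).app _ inf_le_right (res M inf_le_left (d i)))) = 0 := by
          rw [← Nat.sub_add_cancel hL, pow_add, mul_assoc, hk i j, mul_zero]
        replace h1 := congrArg (resF (le_inf ha hb)) h1
        rw [resF_zero, resF_mul, resF_pow, resF_resF, resF_sub, mul_sub, sub_eq_zero, ← unitVal_res,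
          ← unitVal_res, ← (φ i).natural inf_le_left, ← (φ j).natural inf_le_right, res_res] at h1
        refine unitVal_injective ?_
        simp only [LinOn.smul, LinearMap.smul_apply, unitVal_smul, resF_pow, resF_resF]
        exact h1)
      rw [e]
  refine ⟨L + K, Ψ, ?_⟩
  show unitVal (Ψ.app _ (X.basicOpen_le f) e) = _
  refine eq_of_locallyF _ _ fun x hx => ?_
  obtain ⟨i, hi⟩ := hcov x (X.basicOpen_le f hx)
  refine ⟨X.basicOpen (g i) ⊓ X.basicOpen f, inf_le_right, ⟨hi, hx⟩, ?_⟩
  rw [← unitVal_res, ← Ψ.natural (X.basicOpen_le f) inf_le_right, hΨ i _ inf_le_left]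
  simp only [LinOn.smul, LinearMap.smul_apply, unitVal_smul]
  rw [hval i, resF_pow, resF_pow, resF_resF, resF_resF, ← pow_add]

include hU hM in
/-- The sections over the affine form an invertible module. -/
theorem module_invertible : Module.Invertible Γ(X, U) Γ(M, U) := by
  classical
  obtain ⟨ι, hι, g, s, hcov, hs⟩ := exists_gens_sections hU hM
  have := Fintype.ofFinite ι
  choose k ψ hψ using fun i => exists_dual hU hM (g i) _ (hs i)
  let φ : ι → Module.Dual Γ(X, U) Γ(M, U) := fun i =>
    { toFun := fun m => ((ψ i).app U le_rfl m : Γ(X, U))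
      map_add' := fun m m' => map_add ((ψ i).app U le_rfl) m m'
      map_smul' := fun r m => map_smul ((ψ i).app U le_rfl) r m }
  have hspan : Ideal.span (Set.range fun i => φ i (s i)) = ⊤ := by
    rw [← hU.self_le_iSup_basicOpen_iff]
    intro x hx
    obtain ⟨i, hi⟩ := hcov x hx
    refine Opens.mem_iSup.2 ⟨⟨_, i, rfl⟩, ?_⟩
    have h1 : resF (X.basicOpen_le (g i)) (φ i (s i)) = resF (X.basicOpen_le (g i)) (g i) ^ k i :=
      ((ψ i).natural le_rfl (X.basicOpen_le (g i)) (s i)).symm.trans (hψ i)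
    have h2 : X.basicOpen (resF (X.basicOpen_le (g i)) (φ i (s i))) = X.basicOpen (g i) := by
      rw [h1, X.basicOpen_of_isUnit ((isUnit_resF_basicOpen (g i) le_rfl).pow _)]
    rw [basicOpen_resF] at h2
    exact (h2.ge hi).2
  obtain ⟨c, hc⟩ : ∃ c : ι → Γ(X, U), ∑ i, c i * φ i (s i) = 1 := by
    have h1 : (1 : Γ(X, U)) ∈ Ideal.span (Set.range fun i => φ i (s i)) := hspan ▸ trivial
    obtain ⟨c, hc⟩ := (Submodule.mem_span_range_iff_exists_fun _).1 h1
    exact ⟨c, hc⟩
  have comm : ∀ (φ : Module.Dual Γ(X, U) Γ(M, U)) (x y : Γ(M, U)), φ x • y = φ y • x := by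
    intro φ x y
    obtain ⟨Φ, hΦ⟩ := exists_linOn_app (N := unitMod X) hU hM
      ({ toFun := fun m => (φ m : Γ(X, U))
         map_add' := map_add φ
         map_smul' := map_smul φ } : Γ(M, U) →ₗ[Γ(X, U)] Γ(unitMod X, U))
    refine eq_of_locally M _ _ fun z hz => ?_
    obtain ⟨i, hi⟩ := hcov z hz
    set hle := X.basicOpen_le (g i)
    refine ⟨_, hle, hi, ?_⟩
    obtain ⟨a, ha⟩ := (hs i _ le_rfl).2 (res M hle x)
    obtain ⟨b, hb⟩ := (hs i _ le_rfl).2 (res M hle y)
    simp only [res_self] at ha hb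
    have h : ∀ w, resF hle (φ w) = unitVal (Φ.app _ hle (res M hle w)) := fun w =>
      ((Φ.natural le_rfl hle w).trans (congrArg (res (unitMod X) hle)
        (DFunLike.congr_fun hΦ w))).symm
    rw [res_smul, res_smul, h, h, ← ha, ← hb, map_smul, map_smul, unitVal_smul, unitVal_smul,
      smul_smul, smul_smul, mul_right_comm a, mul_comm b, mul_assoc, mul_comm a, mul_comm b,
      mul_assoc]
  refine Hilb.invertible_of_smul_comm comm ⟨∑ i, c i • (φ i ⊗ₜ[Γ(X, U)] s i), ?_⟩
  simp only [map_sum, map_smul, contractLeft_apply, smul_eq_mul]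
  exact hc

end Affine

end Fermat.Agent.Pic.Bridge
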