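import Fermat.Agent.Pic.Bridge.Degree
import Fermat.Agent.Pic.Repr.Represent

/-!
# A natural family of affine points is a morphism

A family of maps on the affine charts of a scheme, natural in the chart, glues to a unique
morphism over the base.
-/

noncomputable section

universe u

open CategoryTheory CategoryTheory.Limits AlgebraicGeometry TopologicalSpace
open AlgebraicGeometry.RelPicard NeronModelInfra
open Fermat.Agent.Pic.Repr

namespace Fermat.Agent.Pic

variable {k : Type u} [Field k] {T Y : Scheme.{u}} {t : T ⟶ Spec (CommRingCat.of k)}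
  {y : Y ⟶ Spec (CommRingCat.of k)}

/-- An affine chart at a point inside an open. -/
theorem exists_affine_chart_le (t : T ⟶ Spec (CommRingCat.of k)) {x : T} {U : T.Opens}
    (hx : x ∈ U) : ∃ (R : Type u) (_ : CommRing R) (_ : Algebra k R)
      (φ : SchemeHomOver (specMap k R) t), IsOpenImmersion φ.1 ∧ x ∈ Set.range φ.1 ∧
        Set.range φ.1 ⊆ U := by
  obtain ⟨_, ⟨V, hV, rfl⟩, hxV, hVU⟩ :=
    T.isBasis_affineOpens.exists_subset_of_mem_open hx U.isOpen
  obtain ⟨R, _, _, φ, hφ, hr⟩ := exists_affine_chart_of_open t hV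
  exact ⟨R, _, _, φ, hφ, hr ▸ hxV, hr ▸ hVU⟩

/-- Maps agreeing on affine charts are equal. -/
theorem hom_ext_of_charts (g g' : SchemeHomOver t y)
    (h : ∀ x : T, ∃ (R : Type u) (_ : CommRing R) (_ : Algebra k R)
      (φ : SchemeHomOver (specMap k R) t), IsOpenImmersion φ.1 ∧ x ∈ Set.range φ.1 ∧
        postComp g φ = postComp g' φ) : g = g' := by
  refine eq_of_openOver g g' fun x => ?_
  obtain ⟨R, _, _, φ, hφ, hx, e⟩ := h x
  refine ⟨φ.1.opensRange, hx, ?_⟩
  have := congrArg (fun ψ => postComp ψ (liftOver φ φ.1.opensRange le_rfl)) e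
  simp only [← postComp_assoc, postComp_liftOver] at this
  exact this

/-- A natural family of affine points is a unique morphism. -/
theorem existsUnique_of_affinePoints
    (G : ∀ (R : Type u) [CommRing R] [Algebra k R],
      SchemeHomOver (specMap k R) t → SchemeHomOver (specMap k R) y)
    (hG : ∀ (R R' : Type u) [CommRing R] [CommRing R'] [Algebra k R] [Algebra k R']
      [Algebra R R'] [IsScalarTower k R R'] (f : SchemeHomOver (specMap k R) t),
      G R' (postComp f (specOver R R')) = postComp (G R f) (specOver R R')) :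
    ∃! g : SchemeHomOver t y, ∀ (R : Type u) [CommRing R] [Algebra k R]
      (f : SchemeHomOver (specMap k R) t), postComp g f = G R f := by
  have hG' : ∀ (R R' : Type u) [CommRing R] [CommRing R'] [Algebra k R] [Algebra k R']
      (f : SchemeHomOver (specMap k R) t) (s : SchemeHomOver (specMap k R') (specMap k R)),
      G R' (postComp f s) = postComp (G R f) s := fun R R' _ _ _ _ f s => by
    obtain ⟨_, _, rfl⟩ := exists_algebra_specOver s
    exact hG R R' f
  choose A i1 i2 φ hφ hx using exists_affine_chart t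
  obtain ⟨g, hg⟩ := exists_glue_cover φ (fun x => ⟨x, hx x⟩) (fun x => G (A x) (φ x))
    fun x x' {Z} z a b e => hom_ext_of_charts _ _ fun w => by
      obtain ⟨R, _, _, ψ, hψ, hw⟩ := exists_affine_chart z w
      refine ⟨R, _, _, ψ, hψ, hw, ?_⟩
      rw [← postComp_assoc, ← postComp_assoc, ← hG', ← hG', postComp_assoc, postComp_assoc, e]
  refine ⟨g, fun R _ _ f₀ => ?_, fun g' hg' => hom_ext_of_charts _ _ fun x =>
    ⟨A x, _, _, φ x, hφ x, hx x, (hg' _ (φ x)).trans (hg x).symm⟩⟩
  refine hom_ext_of_charts _ _ fun w => ?_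
  obtain ⟨R', _, _, ψ, hψ, hw, hle⟩ := exists_affine_chart_le (specMap k R) (x := w)
    (U := f₀.1 ⁻¹ᵁ (φ (f₀.1 w)).1.opensRange) (hx _)
  refine ⟨R', _, _, ψ, hψ, hw, ?_⟩
  have hr : Set.range (ψ.1 ≫ f₀.1) ⊆ Set.range (φ (f₀.1 w)).1 := by
    rintro _ ⟨z, rfl⟩
    exact hle ⟨z, rfl⟩
  let s : SchemeHomOver (specMap k R') (specMap k (A (f₀.1 w))) :=
    ⟨IsOpenImmersion.lift (φ (f₀.1 w)).1 (ψ.1 ≫ f₀.1) hr, by
      have h1 := congrArg (· ≫ t) (IsOpenImmersion.lift_fac (φ (f₀.1 w)).1 (ψ.1 ≫ f₀.1) hr)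
      simp only [Category.assoc] at h1
      exact (congrArg (IsOpenImmersion.lift (φ (f₀.1 w)).1 (ψ.1 ≫ f₀.1) hr ≫ ·)
        (φ (f₀.1 w)).2.symm).trans (h1.trans ((congrArg (ψ.1 ≫ ·) f₀.2).trans ψ.2))⟩
  have hs : postComp (φ (f₀.1 w)) s = postComp f₀ ψ :=
    Subtype.ext (IsOpenImmersion.lift_fac _ _ _)
  rw [← postComp_assoc, ← hs, ← hG', ← hs, postComp_assoc,
    hg, ← hG']

end Fermat.Agent.Pic
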