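import Fermat.Agent.Pic.Bridge.Affine
import Fermat.Agent.Pic.Repr.Transpose

/-!
# Generators pull back to generators

The pullback of a generator of a line bundle is a generator: near each point it is a multiple of a
generator upstairs by a function not vanishing there.
-/

noncomputable section

universe u

open CategoryTheory TopologicalSpace Opposite AlgebraicGeometry
open Fermat.Agent.Pic.Repr

namespace Fermat.Agent.Pic.Bridge

variable {X Y : Scheme.{u}} (f : Y ⟶ X) (M : X.Modules)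

/-- The pullback of a section. -/
def pullSec {V : X.Opens} (m : Γ(M, V)) :
    Γ((Scheme.Modules.pullback f).obj M, f ⁻¹ᵁ V) :=
  ((Scheme.Modules.pullbackPushforwardAdjunction f).unit.app M).app V m

theorem pullSec_res {V V' : X.Opens} (h : V ≤ V') (m : Γ(M, V')) :
    pullSec f M (res M h m) =
      res ((Scheme.Modules.pullback f).obj M) (f.preimage_mono h) (pullSec f M m) :=
  (LinOn.ofHom ((Scheme.Modules.pullbackPushforwardAdjunction f).unit.app M) ⊤).natural le_top h m

theorem pullSec_smul {V : X.Opens} (r : Γ(X, V)) (m : Γ(M, V)) :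
    pullSec f M (r • m) = f.app V r • pullSec f M m :=
  Scheme.Modules.Hom.app_smul _ r m

theorem pullSec_add {V : X.Opens} (m n : Γ(M, V)) :
    pullSec f M (m + n) = pullSec f M m + pullSec f M n :=
  (((Scheme.Modules.pullbackPushforwardAdjunction f).unit.app M).app V).hom.map_add m n

theorem isGen_one (W : Y.Opens) : IsGen (unitMod Y) W (1 : Γ(Y, W)) := fun V hV => by
  have e : (fun r : Γ(Y, V) => r • res (unitMod Y) hV (1 : Γ(Y, W))) =
      fun r : Γ(Y, V) => (r : Γ(unitMod Y, V)) := funext fun r =>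
    show r * resF hV 1 = r by rw [resF_one, mul_one]
  rw [e]
  exact Function.bijective_id

/-- The map sending `1` to `e` multiplies `e` by a function. -/
theorem linOnOfGen_one_apply {L : Y.Modules} {W : Y.Opens} (e : Γ(L, W)) {V : Y.Opens}
    (hV : V ≤ W) (r : Γ(Y, V)) :
    (linOnOfGen (N := L) (isGen_one W) e).app V hV r = r • res L hV e := by
  have h := linOnOfGen_app (N := L) (isGen_one W) e V hV
  have h1 : (r : Γ(unitMod Y, V)) = r • res (unitMod Y) hV (1 : Γ(Y, W)) :=
    show r = r * resF hV 1 by rw [resF_one, mul_one]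
  exact (congrArg _ h1).trans ((map_smul _ r _).trans (congrArg (r • ·) h))

theorem isIsoOn_linOnOfGen {L : Y.Modules} {W : Y.Opens} {e : Γ(L, W)} (he : IsGen L W e) :
    (linOnOfGen (N := L) (isGen_one W) e).IsIsoOn := fun V hV => by
  rw [show ⇑((linOnOfGen (N := L) (isGen_one W) e).app V hV) = fun r : Γ(Y, V) => r • res L hV e
    from funext (linOnOfGen_one_apply e hV)]
  exact he V hV

/-- A generator is one if it is one near every point. -/
theorem isGen_of_local {L : Y.Modules} {W : Y.Opens} (e : Γ(L, W))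
    (h : ∀ y ∈ W, ∃ (W' : Y.Opens) (hW' : W' ≤ W), y ∈ W' ∧ IsGen L W' (res L hW' e)) :
    IsGen L W e := by
  let ψ : LinOn W (unitMod Y) L := linOnOfGen (N := L) (isGen_one W) e
  have hψ : ψ.IsIsoOn := LinOn.IsIsoOn.of_local ψ fun y hy => by
    obtain ⟨W', hW', hyW', hgen⟩ := h y hy
    refine ⟨W', hW', hyW', fun V hV => ?_⟩
    show Function.Bijective (ψ.app V (hV.trans hW'))
    rw [show ⇑(ψ.app V (hV.trans hW')) = fun r : Γ(Y, V) => r • res L (hV.trans hW') e from
      funext (linOnOfGen_one_apply e _)]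
    have h3 := hgen V hV
    simp only [res_res] at h3
    exact h3
  intro V hV
  have h2 := hψ V hV
  rwa [show ⇑(ψ.app V hV) = fun r : Γ(Y, V) => r • res L hV e from
    funext (linOnOfGen_one_apply e hV)] at h2

/-- The coefficient of the pullback of a generator along a generator upstairs does not vanish:
otherwise a rigidification of the pullback at such a point would kill every section downstairs, so
its adjoint would vanish. -/
theorem mem_basicOpen_coeff {M : X.Modules} (hM : IsLineOn M ⊤) {V : X.Opens} {e : Γ(M, V)}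
    (he : IsGen M V e) {W : Y.Opens} {e' : Γ((Scheme.Modules.pullback f).obj M, W)}
    (he' : IsGen ((Scheme.Modules.pullback f).obj M) W e') {y : Y} (hy : y ∈ f ⁻¹ᵁ V)
    (hyW : y ∈ W) {a : Γ(Y, W ⊓ f ⁻¹ᵁ V)}
    (ha : a • res _ inf_le_left e' = res _ inf_le_right (pullSec f M e)) :
    y ∈ Y.basicOpen a := by
  have hL : IsLineOn ((Scheme.Modules.pullback f).obj M) ⊤ :=
    isLineOn_top ((isInvertible_of_isLineOn hM).pullback f)
  by_contra hna
  set i := Y.fromSpecResidueField y
  set L'' := (Scheme.Modules.pullback i).obj ((Scheme.Modules.pullback f).obj M)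
  obtain ⟨s₀⟩ : Nonempty (Spec (Y.residueField y)) := inferInstance
  have htop : ∀ (O : (Spec (Y.residueField y)).Opens) (s : Spec (Y.residueField y)),
      s ∈ O → ⊤ ≤ O := fun O s hs t _ => by rwa [Subsingleton.elim t s]
  obtain ⟨O, hsO, -, e'', he''⟩ :=
    isLineOn_top ((isInvertible_of_isLineOn hL).pullback i) s₀ trivial
  have hge := he''.mono (htop O s₀ hsO)
  have := LinOn.isIso_toHom _ (isIsoOn_linOnOfGen hge)
  let adj := Scheme.Modules.pullbackPushforwardAdjunction i
  let ρ := adj.homEquiv ((Scheme.Modules.pullback f).obj M) (unitMod _)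
    (inv (linOnOfGen (N := L'') (isGen_one ⊤) (res L'' (htop O s₀ hsO) e'')).toHom)
  let R : RigMod i := ⟨(Scheme.Modules.pullback f).obj M, ρ⟩
  have : IsIso R.transpose := by
    rw [RigMod.transpose]
    show IsIso ((adj.homEquiv _ (unitMod _)).symm (adj.homEquiv _ (unitMod _) _))
    rw [Equiv.symm_apply_apply]
    infer_instance
  have hu := (R.isRigid_of_isIso_transpose hL).2 W le_top e' he'
  have ha0 : i.app (W ⊓ f ⁻¹ᵁ V) a = 0 := (residue_app_eq_zero_iff y a).2 hna
  have h0 : R.ev (res ((Scheme.Modules.pullback f).obj M) (inf_le_right : W ⊓ f ⁻¹ᵁ V ≤ f ⁻¹ᵁ V)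
      (pullSec f M e)) = 0 := by
    rw [← ha, RigMod.ev_smul]
    show i.app (W ⊓ f ⁻¹ᵁ V) a * _ = 0
    rw [ha0, zero_mul]
  have htopV : ⊤ ≤ i ⁻¹ᵁ (W ⊓ f ⁻¹ᵁ V) := htop _ s₀ (by
    show i s₀ ∈ W ⊓ f ⁻¹ᵁ V
    rw [Scheme.fromSpecResidueField_apply]
    exact ⟨hyW, hy⟩)
  have h1 : R.ev (pullSec f M e) = 0 := by
    refine eq_of_locallyF _ _ fun s _ => ⟨i ⁻¹ᵁ (W ⊓ f ⁻¹ᵁ V), i.preimage_mono
      (inf_le_right : W ⊓ f ⁻¹ᵁ V ≤ f ⁻¹ᵁ V), htopV trivial, ?_⟩
    rw [← R.ev_res (inf_le_right : W ⊓ f ⁻¹ᵁ V ≤ f ⁻¹ᵁ V), h0, resF_zero]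
  let χ := (Scheme.Modules.pullbackPushforwardAdjunction f).homEquiv M _ ρ
  have hχ : χ = 0 := by
    refine Scheme.Modules.hom_ext _ _ fun U => AddCommGrpCat.ext fun m => ?_
    show R.ev (pullSec f M m) = 0
    refine eq_of_locallyF _ _ fun s hs => ?_
    have hy' : y ∈ f ⁻¹ᵁ U := by
      have h : i s ∈ f ⁻¹ᵁ U := hs
      rwa [Scheme.fromSpecResidueField_apply] at h
    obtain ⟨r, hr⟩ := (he (U ⊓ V) inf_le_right).2 (res M inf_le_left m)
    refine ⟨i ⁻¹ᵁ f ⁻¹ᵁ (U ⊓ V), i.preimage_mono (f.preimage_mono (inf_le_left : U ⊓ V ≤ U)),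
        ?_, ?_⟩
    · show f (i s) ∈ U ⊓ V
      rw [Scheme.fromSpecResidueField_apply]
      exact ⟨hy', hy⟩
    · rw [← R.ev_res (f.preimage_mono (inf_le_left : U ⊓ V ≤ U)),
        ← pullSec_res f M (inf_le_left : U ⊓ V ≤ U), ← hr, pullSec_smul, pullSec_res,
          RigMod.ev_smul,
        RigMod.ev_res, h1, resF_zero, mul_zero, resF_zero]
  have hρ : ρ = 0 := by
    refine ((Scheme.Modules.pullbackPushforwardAdjunction f).homEquiv M _).injective ?_
    refine hχ.trans ?_
    rw [Adjunction.homEquiv_unit, Functor.map_zero, Limits.comp_zero]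
  have h2 : R.ev e' = 0 :=
    congrArg (fun φ : (Scheme.Modules.pullback f).obj M ⟶ sigmaUnit i =>
      (φ.app W e' : Γ(Spec (Y.residueField y), i ⁻¹ᵁ W))) hρ
  rw [h2, isUnit_zero_iff] at hu
  have h3 : (Spec (Y.residueField y)).basicOpen (0 : Γ(Spec (Y.residueField y), i ⁻¹ᵁ W)) =
      i ⁻¹ᵁ W := Scheme.basicOpen_of_isUnit _ (isUnit_zero_iff.2 hu)
  rw [Scheme.basicOpen_zero] at h3
  have h4 : s₀ ∈ (⊥ : (Spec (Y.residueField y)).Opens) :=
    h3.ge (show i s₀ ∈ W by rw [Scheme.fromSpecResidueField_apply]; exact hyW)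
  exact h4

/-- Generators pull back to generators. -/
theorem isGen_pullSec {M : X.Modules} (hM : IsLineOn M ⊤) {V : X.Opens} {e : Γ(M, V)}
    (he : IsGen M V e) :
    IsGen ((Scheme.Modules.pullback f).obj M) (f ⁻¹ᵁ V) (pullSec f M e) := by
  set L := (Scheme.Modules.pullback f).obj M
  have hL : IsLineOn L ⊤ := isLineOn_top ((isInvertible_of_isLineOn hM).pullback f)
  refine isGen_of_local _ fun y hy => ?_
  obtain ⟨W, hyW, -, e', he'⟩ := hL y trivial
  set W' := W ⊓ f ⁻¹ᵁ V
  obtain ⟨a, ha⟩ := (he'.mono (inf_le_left : W' ≤ W) _ le_rfl).2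
    (res L inf_le_right (pullSec f M e))
  simp only [res_self] at ha
  have hya : y ∈ Y.basicOpen a := mem_basicOpen_coeff f hM he he' hy hyW ha
  refine ⟨Y.basicOpen a, (Y.basicOpen_le a).trans inf_le_right, hya, fun V₁ hV₁ => ?_⟩
  have hle := hV₁.trans (Y.basicOpen_le a)
  have hua : IsUnit (resF hle a) := isUnit_resF_basicOpen a hV₁
  convert ((he' V₁ (hle.trans inf_le_left)).comp hua.unit.mulRight.bijective) using 1
  funext r
  show r • res L hV₁ (res L _ (pullSec f M e)) = (r * resF hle a) • res L _ e'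
  rw [res_res, ← res_res L hle inf_le_right (pullSec f M e), ← ha, res_smul, res_res, smul_smul]

end Fermat.Agent.Pic.Bridge
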