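import Fermat.Agent.Pic.Bridge.Iso
import Fermat.Agent.Pic.Bridge.PullGen
import Fermat.Agent.Pic.Cech.DualBaseChange
import Fermat.Agent.Pic.Cech.Invertible

/-!
# The datum of a pullback is the base change of the datum

For a map of presented schemes the pullback of sections on the two charts and the overlap makes
the datum of the pulled back module the base change of the datum.
-/

noncomputable section

universe u

open CategoryTheory TopologicalSpace Opposite AlgebraicGeometry TensorProduct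
open Fermat.Agent.Pic.Cech Fermat.Agent.Pic.Repr

namespace Fermat.Agent.Pic.Bridge

section Algebra

variable {k : Type u} [Field k] {R R' : Type u} [CommRing R] [CommRing R'] [Algebra k R]
  [Algebra k R'] [Algebra R R'] [IsScalarTower k R R'] {B : Type u} [CommRing B] [Algebra k B]
  {N N' : Type u} [AddCommGroup N] [Module R N] [Module (R ⊗[k] B) N]
  [IsScalarTower R (R ⊗[k] B) N] [AddCommGroup N'] [Module R' N'] [Module (R' ⊗[k] B) N']
  [IsScalarTower R' (R' ⊗[k] B) N']
  (b : N →ₛₗ[(Algebra.TensorProduct.map (IsScalarTower.toAlgHom k R R')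
    (AlgHom.id k B)).toRingHom] N')

theorem liftChart_chartAct (r : R' ⊗[k] B) (z : R' ⊗[R] N) :
    liftChart b (chartAct R' N r z) = r • liftChart b z := by
  induction r using TensorProduct.induction_on with
  | zero => simp
  | tmul a β =>
    induction z using TensorProduct.induction_on with
    | zero => simp
    | tmul a' x =>
      rw [chartAct_tmul, liftChart_tmul, liftChart_tmul, map_smulₛₗ]
      show (a * a') • (Algebra.TensorProduct.map _ _ ((1 : R) ⊗ₜ[k] β)) • b x = _
      rw [Algebra.TensorProduct.map_tmul, map_one, AlgHom.id_apply, smul_comm,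
        ← algebraMap_smul (R' ⊗[k] B) a' (b x),
        ← algebraMap_smul (R' ⊗[k] B) (a * a') (b x), ← mul_smul, ← mul_smul]
      simp [Algebra.TensorProduct.algebraMap_apply, mul_comm]
    | add u v hu hv => simp only [map_add, smul_add, hu, hv]
  | add u v hu hv => simp only [map_add, LinearMap.add_apply, add_smul, hu, hv]

theorem liftChart_bijective [Module.Invertible (R ⊗[k] B) N] [Module.Invertible (R' ⊗[k] B) N']
    (hspan : Submodule.span (R' ⊗[k] B) (Set.range b) = ⊤) :
    Function.Bijective (liftChart b) := by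
  let := chartModule (k := k) (R := R) R' (B := B) N
  have := invertible_chart (k := k) (R := R) (R' := R') (B := B) N
  let φ : R' ⊗[R] N →ₗ[R' ⊗[k] B] N' :=
    { toFun := liftChart b
      map_add' := map_add _
      map_smul' := liftChart_chartAct b }
  refine Module.Invertible.bijective_of_surjective (f := φ) (LinearMap.range_eq_top.1 ?_)
  refine top_le_iff.1 (hspan ▸ Submodule.span_le.2 ?_)
  rintro _ ⟨x, rfl⟩
  exact ⟨1 ⊗ₜ x, one_smul R' (b x)⟩

end Algebra

/-- Maps of data with invertible charts generated by their images are base changes. -/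
theorem nonempty_baseChange_of_span {k : Type u} [Field k] {C : Cover k} {R R' : Type u}
    [CommRing R] [CommRing R'] [Algebra k R] [Algebra k R'] [Algebra R R'] [IsScalarTower k R R']
    (L : Datum C R) (L' : Datum C R')
    (b0 : L.N0 →ₛₗ[(C.bc0 R R').toRingHom] L'.N0) (b1 : L.N1 →ₛₗ[(C.bc1 R R').toRingHom] L'.N1)
    (b01 : L.N01 →ₛₗ[(C.bc01 R R').toRingHom] L'.N01)
    (comm0 : ∀ x, b01 (L.f0 x) = L'.f0 (b0 x)) (comm1 : ∀ y, b01 (L.f1 y) = L'.f1 (b1 y))
    (span0 : Submodule.span (C.RB0 R') (Set.range b0) = ⊤)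
    (span1 : Submodule.span (C.RB1 R') (Set.range b1) = ⊤) :
    Nonempty (BaseChange L.toPre L'.toPre) := by
  have h0 := liftChart_bijective (B := C.B0) b0 span0
  have h1 := liftChart_bijective (B := C.B1) b1 span1
  have hc : ∀ v : R' ⊗[R] L.N0, liftChart (B := C.B01) b01 (L.g0.baseChange R' v) =
      L'.f0 (liftChart (B := C.B0) b0 v) := fun v => by
    induction v using TensorProduct.induction_on with
    | zero =>
      rw [map_zero, map_zero, map_zero]
      exact (map_zero L'.f0).symm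
    | tmul a x =>
      exact ((liftChart_tmul b01 a (L.f0 x)).trans
        ((congrArg (a • ·) (comm0 x)).trans (L'.f0_smul a (b0 x)).symm)).trans
          (congrArg L'.f0 (liftChart_tmul b0 a x).symm)
    | add u v hu hv => simp only [map_add, hu, hv]
  have h01 : Function.Bijective (liftChart (B := C.B01) b01) := by
    refine ⟨(injective_iff_map_eq_zero _).2 fun w hw => ?_, fun z => ?_⟩
    · obtain ⟨n, v, hv⟩ := (L.toPre.baseChange R').surj0 w
      have hv' : chartAct (k := k) (B := C.B01) R' L.N01 (C.T R' ^ n) w = L.g0.baseChange R' v := hv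
      have h : L'.f0 (liftChart (B := C.B0) b0 v) = 0 :=
        (hc v).symm.trans ((congrArg _ hv'.symm).trans
          ((liftChart_chartAct (B := C.B01) b01 _ w).trans
            ((congrArg (C.T R' ^ n • ·) hw).trans (smul_zero _))))
      obtain ⟨m, hm⟩ := L'.ker0 _ h
      have hm' : chartAct (k := k) (B := C.B0) R' L.N0 (C.T0 R' ^ m) v = 0 :=
        h0.1 (((liftChart_chartAct (B := C.B0) b0 _ v).trans hm).trans (map_zero _).symm)
      have h2 := (L.toPre.baseChange R').f0.map_smulₛₗ (C.T0 R' ^ m) v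
      rw [show C.T0 R' ^ m • v = 0 from hm', map_zero, ← hv] at h2
      have hu : IsUnit (C.ρ0 R' (C.T0 R' ^ m) * C.T R' ^ n) := by
        rw [map_pow, C.ρ0_T0]
        exact ((IsUnit.of_mul_eq_one _ (C.T_mul_T' R')).pow m).mul
          ((IsUnit.of_mul_eq_one _ (C.T_mul_T' R')).pow n)
      exact (hu.smul_left_cancel (β := (L.toPre.baseChange R').N01)).1
        (((mul_smul _ _ _).trans h2.symm).trans (smul_zero _).symm)
    · obtain ⟨n, x, hx⟩ := L'.surj0 z
      obtain ⟨v, rfl⟩ := h0.2 x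
      refine ⟨chartAct (k := k) (B := C.B01) R' L.N01 (C.T' R' ^ n) (L.g0.baseChange R' v), ?_⟩
      exact (liftChart_chartAct (B := C.B01) b01 _ _).trans
        ((congrArg (C.T' R' ^ n • ·) ((hc v).trans hx.symm)).trans
          (by rw [smul_smul, C.T'_pow_mul_T_pow, one_smul]))
  exact ⟨{ b0 := b0, b1 := b1, b01 := b01, comm0 := comm0, comm1 := comm1
           exists_e0 := ⟨LinearEquiv.ofBijective _ h0, fun x => one_smul R' (b0 x)⟩
           exists_e1 := ⟨LinearEquiv.ofBijective _ h1, fun x => one_smul R' (b1 x)⟩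
           exists_e01 := ⟨LinearEquiv.ofBijective _ h01, fun x => one_smul R' (b01 x)⟩ }⟩

/-- Sections generating near every point span. -/
theorem span_eq_top_of_gens {X : Scheme.{u}} {L : X.Modules} {U : X.Opens} (hU : IsAffineOpen U)
    (hL : IsLineOn L U) {ι : Type u} (g : ι → Γ(X, U)) (s : ι → Γ(L, U))
    (hcov : ∀ x ∈ U, ∃ i, x ∈ X.basicOpen (g i))
    (hs : ∀ i, IsGen L (X.basicOpen (g i)) (res L (X.basicOpen_le (g i)) (s i))) :
    Submodule.span Γ(X, U) (Set.range s) = ⊤ := by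
  refine top_le_iff.1 fun m _ => ?_
  refine Submodule.mem_of_span_eq_top_of_smul_pow_mem _ (Set.range g) ?_ m ?_
  · rw [← hU.self_le_iSup_basicOpen_iff]
    intro x hx
    obtain ⟨i, hi⟩ := hcov x hx
    exact Opens.mem_iSup.2 ⟨⟨_, i, rfl⟩, hi⟩
  · rintro ⟨_, i, rfl⟩
    set hle := X.basicOpen_le (g i)
    obtain ⟨c, hc⟩ := (hs i _ le_rfl).2 (res L hle m)
    simp only [res_self] at hc
    obtain ⟨p, a, ha⟩ := exists_resF_eq_pow_mul hU (g i) rfl hle c
    obtain ⟨q, hq⟩ := exists_pow_smul_eq_zero hU hL (g i) (g i ^ p • m - a • s i) (by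
      rw [res_sub, res_smul, res_smul, resF_pow, ha, mul_smul, hc, sub_self])
    rw [smul_sub, sub_eq_zero, smul_smul, smul_smul, ← pow_add] at hq
    refine ⟨q + p, ?_⟩
    show g i ^ (q + p) • m ∈ _
    rw [hq]
    exact Submodule.smul_mem _ _ (Submodule.subset_span ⟨i, rfl⟩)

/-- The pullbacks of all sections over an affine span. -/
theorem span_pullSec_eq_top {X Y : Scheme.{u}} (f : Y ⟶ X) {M : X.Modules} (hM : IsLineOn M ⊤)
    {U : X.Opens} (hU : IsAffineOpen U) {U' : Y.Opens} (hU' : IsAffineOpen U')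
    (hpre : f ⁻¹ᵁ U = U') :
    Submodule.span Γ(Y, U') (Set.range fun m : Γ(M, U) =>
      res ((Scheme.Modules.pullback f).obj M) hpre.ge (pullSec f M m)) = ⊤ := by
  obtain ⟨ι, -, g, s, hcov, hs⟩ := exists_gens_sections hU (hM.mono le_top)
  set L := (Scheme.Modules.pullback f).obj M
  have hL : IsLineOn L ⊤ := isLineOn_top ((isInvertible_of_isLineOn hM).pullback f)
  let g' : ι → Γ(Y, U') := fun i => resF hpre.ge (f.app U (g i))
  have hb : ∀ i, Y.basicOpen (g' i) = U' ⊓ f ⁻¹ᵁ X.basicOpen (g i) := fun i => by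
    rw [basicOpen_resF, Scheme.preimage_basicOpen]
  refine top_le_iff.1 ((span_eq_top_of_gens hU' (hL.mono le_top) g'
    (fun i => res L hpre.ge (pullSec f M (s i))) (fun y hy => ?_) fun i => ?_).ge.trans
    (Submodule.span_mono ?_))
  · obtain ⟨i, hi⟩ := hcov (f y) (hpre.ge hy)
    exact ⟨i, (hb i).ge ⟨hy, hi⟩⟩
  · have hle : Y.basicOpen (g' i) ≤ f ⁻¹ᵁ X.basicOpen (g i) := (hb i).le.trans inf_le_right
    have h := (isGen_pullSec f hM (hs i)).mono hle
    rw [pullSec_res, res_res] at h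
    rw [res_res]
    exact h
  · rintro _ ⟨i, rfl⟩
    exact ⟨s i, rfl⟩

namespace Charted

variable {k : Type u} [Field k] {C : Cover k} {R R' : Type u} [CommRing R] [Algebra k R]
  [CommRing R'] [Algebra k R'] [Algebra R R'] [IsScalarTower k R R'] {X X' : Scheme.{u}}
  {𝒳 : Charted C R X} {𝒳' : Charted C R' X'} {f : X' ⟶ X}

theorem IsHom.pre01 (h : 𝒳.IsHom 𝒳' f) : f ⁻¹ᵁ (𝒳.U0 ⊓ 𝒳.U1) = 𝒳'.U0 ⊓ 𝒳'.U1 := by
  rw [← h.pre0, ← h.pre1]
  rfl

theorem IsHom.app01 (h : 𝒳.IsHom 𝒳' f) (z : C.RB01 R) :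
    resF h.pre01.ge (f.app (𝒳.U0 ⊓ 𝒳.U1) (𝒳.e01 z)) = 𝒳'.e01 (C.bc01 R R' z) := by
  have key : ∀ b : C.RB0 R, resF h.pre01.ge (f.app (𝒳.U0 ⊓ 𝒳.U1) (𝒳.e01 (C.ρ0 R b))) =
      𝒳'.e01 (C.bc01 R R' (C.ρ0 R b)) := fun b => by
    rw [← 𝒳.res0, app_resF, resF_resF, bc01_ρ0, ← 𝒳'.res0, ← h.app0, resF_resF]
  obtain ⟨n, b, hb⟩ := C.exists_T_pow_mul R z
  have hT : resF h.pre01.ge (f.app (𝒳.U0 ⊓ 𝒳.U1) (𝒳.e01 (C.T R ^ n))) =
      𝒳'.e01 (C.bc01 R R' (C.T R ^ n)) := by
    rw [← C.ρ0_T0, ← map_pow]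
    exact key _
  have hk := key b
  rw [← hb, map_mul, map_mul, resF_mul, map_mul (C.bc01 R R'), map_mul, hT] at hk
  exact (((IsUnit.of_mul_eq_one _ (C.T_mul_T' R)).pow n).map
    ((𝒳'.e01.toRingHom).comp (C.bc01 R R').toRingHom)).mul_left_cancel hk

variable (M : X.Modules)

/-- Pullback of sections on the first chart. -/
def pull0 (h : 𝒳.IsHom 𝒳' f) :
    𝒳.Sec0 M →ₛₗ[(C.bc0 R R').toRingHom] 𝒳'.Sec0 ((Scheme.Modules.pullback f).obj M) where
  toFun x := 𝒳'.sec0 (res _ h.pre0.ge (pullSec f M x.val))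
  map_add' x y := (congrArg (res _ h.pre0.ge) (pullSec_add f M x.val y.val)).trans (res_add _ _ _ _)
  map_smul' a x := (congrArg (res _ h.pre0.ge) (pullSec_smul f M (𝒳.e0 a) x.val)).trans
    ((res_smul _ _ _ _).trans (congrArg (· • _) (h.app0 a)))

/-- Pullback of sections on the second chart. -/
def pull1 (h : 𝒳.IsHom 𝒳' f) :
    𝒳.Sec1 M →ₛₗ[(C.bc1 R R').toRingHom] 𝒳'.Sec1 ((Scheme.Modules.pullback f).obj M) where
  toFun x := 𝒳'.sec1 (res _ h.pre1.ge (pullSec f M x.val))
  map_add' x y := (congrArg (res _ h.pre1.ge) (pullSec_add f M x.val y.val)).trans (res_add _ _ _ _)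
  map_smul' a x := (congrArg (res _ h.pre1.ge) (pullSec_smul f M (𝒳.e1 a) x.val)).trans
    ((res_smul _ _ _ _).trans (congrArg (· • _) (h.app1 a)))

/-- Pullback of sections on the overlap. -/
def pull01 (h : 𝒳.IsHom 𝒳' f) :
    𝒳.Sec01 M →ₛₗ[(C.bc01 R R').toRingHom] 𝒳'.Sec01 ((Scheme.Modules.pullback f).obj M) where
  toFun x := 𝒳'.sec01 (res _ h.pre01.ge (pullSec f M x.val))
  map_add' x y := (congrArg (res _ h.pre01.ge) (pullSec_add f M x.val y.val)).trans
    (res_add _ _ _ _)
  map_smul' a x := (congrArg (res _ h.pre01.ge) (pullSec_smul f M (𝒳.e01 a) x.val)).trans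
    ((res_smul _ _ _ _).trans (congrArg (· • _) (h.app01 a)))

variable {M}

/-- The datum of the pullback is the base change of the datum. -/
theorem nonempty_baseChange (h : 𝒳.IsHom 𝒳' f) (hM : M.IsInvertible) :
    Nonempty (BaseChange (𝒳.toDatum M hM).toPre (𝒳'.toDatum _ (hM.pullback f)).toPre) := by
  refine nonempty_baseChange_of_span (𝒳.toDatum M hM) (𝒳'.toDatum _ (hM.pullback f))
    (pull0 M h) (pull1 M h) (pull01 M h) (fun x => ?_) (fun y => ?_) ?_ ?_
  · show res _ h.pre01.ge (pullSec f M (res M inf_le_left (Sec0.val x))) =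
      res _ inf_le_left (res _ h.pre0.ge (pullSec f M (Sec0.val x)))
    rw [pullSec_res, res_res, res_res]
  · show res _ h.pre01.ge (pullSec f M (res M inf_le_right (Sec1.val y))) =
      res _ inf_le_right (res _ h.pre1.ge (pullSec f M (Sec1.val y)))
    rw [pullSec_res, res_res, res_res]
  · have hs := span_pullSec_eq_top f (isLineOn_top hM) 𝒳.affine0 𝒳'.affine0 h.pre0
    refine top_le_iff.1 fun x _ => ?_
    have hx : (Sec0.val x) ∈ (⊤ : Submodule Γ(X', 𝒳'.U0) _) := trivial
    rw [← hs] at hx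
    refine Submodule.span_induction (p := fun m _ => 𝒳'.sec0 m ∈
      Submodule.span (C.RB0 R') (Set.range (pull0 M h))) ?_ ?_ ?_ ?_ hx
    · rintro _ ⟨m, rfl⟩
      exact Submodule.subset_span ⟨𝒳.sec0 m, rfl⟩
    · exact Submodule.zero_mem _
    · exact fun a b _ _ ha hb => Submodule.add_mem _ ha hb
    · intro r m _ hm
      obtain ⟨r', rfl⟩ := 𝒳'.e0.surjective r
      exact Submodule.smul_mem _ r' hm
  · have hs := span_pullSec_eq_top f (isLineOn_top hM) 𝒳.affine1 𝒳'.affine1 h.pre1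
    refine top_le_iff.1 fun x _ => ?_
    have hx : (Sec1.val x) ∈ (⊤ : Submodule Γ(X', 𝒳'.U1) _) := trivial
    rw [← hs] at hx
    refine Submodule.span_induction (p := fun m _ => 𝒳'.sec1 m ∈
      Submodule.span (C.RB1 R') (Set.range (pull1 M h))) ?_ ?_ ?_ ?_ hx
    · rintro _ ⟨m, rfl⟩
      exact Submodule.subset_span ⟨𝒳.sec1 m, rfl⟩
    · exact Submodule.zero_mem _
    · exact fun a b _ _ ha hb => Submodule.add_mem _ ha hb
    · intro r m _ hm
      obtain ⟨r', rfl⟩ := 𝒳'.e1.surjective r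
      exact Submodule.smul_mem _ r' hm

end Charted

end Fermat.Agent.Pic.Bridge
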