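import Fermat.Agent.Pic.Cech.BaseChange
import Fermat.Agent.Pic.Repr.LinOn

/-!
# Schemes presented by the base change of a two-chart cover

`Charted C R X`: two affine opens covering `X` whose rings are those of the cover over `R`, the
overlap being the locus where the parameter is invertible on either chart.
-/

noncomputable section

universe u

open CategoryTheory AlgebraicGeometry
open Fermat.Agent.Pic.Cech Fermat.Agent.Pic.Repr

namespace Fermat.Agent.Pic.Bridge

variable {k : Type u} [Field k] {C : Cover k} {R R' : Type u} [CommRing R] [Algebra k R]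
  [CommRing R'] [Algebra k R'] [Algebra R R'] [IsScalarTower k R R'] {X X' : Scheme.{u}}

/-- A scheme presented by the cover over `R`. -/
structure Charted (C : Cover k) (R : Type u) [CommRing R] [Algebra k R] (X : Scheme.{u}) where
  /-- The first affine chart. -/
  U0 : X.Opens
  /-- The second affine chart. -/
  U1 : X.Opens
  affine0 : IsAffineOpen U0
  affine1 : IsAffineOpen U1
  cover : U0 ⊔ U1 = ⊤
  /-- The ring of the first chart, identified with that of the cover over `R`. -/
  e0 : C.RB0 R ≃+* Γ(X, U0)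
  /-- The ring of the second chart, identified with that of the cover over `R`. -/
  e1 : C.RB1 R ≃+* Γ(X, U1)
  /-- The ring of the overlap, identified with that of the cover over `R`. -/
  e01 : C.RB01 R ≃+* Γ(X, U0 ⊓ U1)
  res0 : ∀ a, resF (inf_le_left : U0 ⊓ U1 ≤ U0) (e0 a) = e01 (C.ρ0 R a)
  res1 : ∀ a, resF (inf_le_right : U0 ⊓ U1 ≤ U1) (e1 a) = e01 (C.ρ1 R a)
  basic0 : U0 ⊓ U1 = X.basicOpen (e0 (C.T0 R))
  basic1 : U0 ⊓ U1 = X.basicOpen (e1 (C.T1 R))

/-- A morphism of presented schemes over a map of base rings. -/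
structure Charted.IsHom (𝒳 : Charted C R X) (𝒳' : Charted C R' X') (f : X' ⟶ X) : Prop where
  pre0 : f ⁻¹ᵁ 𝒳.U0 = 𝒳'.U0
  pre1 : f ⁻¹ᵁ 𝒳.U1 = 𝒳'.U1
  app0 : ∀ a, resF pre0.ge (f.app 𝒳.U0 (𝒳.e0 a)) = 𝒳'.e0 (C.bc0 R R' a)
  app1 : ∀ a, resF pre1.ge (f.app 𝒳.U1 (𝒳.e1 a)) = 𝒳'.e1 (C.bc1 R R' a)

end Fermat.Agent.Pic.Bridge
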