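import Mathlib.AlgebraicGeometry.Modules.Tilde
import Fermat.Agent.Pic.Bridge.Affine

/-!
# The module of an invertible module on an affine open

An invertible module over the ring of an affine open is the module of sections of a line bundle on
that open, extended by direct image.
-/

noncomputable section

universe u

open CategoryTheory TopologicalSpace Opposite AlgebraicGeometry TensorProduct
open Fermat.Agent.Pic.Repr

namespace Fermat.Agent.Pic.Bridge

/-- Bijectivity on all sections follows from bijectivity on a basis. -/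
theorem isIsoOn_of_basis {X : Scheme.{u}} {W : X.Opens} {M N : X.Modules} (φ : LinOn W M N)
    (B : X.Opens → Prop) (hB : ∀ (V : X.Opens), V ≤ W → ∀ x ∈ V, ∃ D, B D ∧ D ≤ V ∧ x ∈ D)
    (h : ∀ D (hD : D ≤ W), B D → Function.Bijective (φ.app D hD)) : φ.IsIsoOn := by
  have hinj : ∀ V (hV : V ≤ W), Function.Injective (φ.app V hV) := fun V hV m n hmn =>
    eq_of_locally M m n fun x hx => by
      obtain ⟨D, hD, hDV, hxD⟩ := hB V hV x hx
      exact ⟨D, hDV, hxD, (h D (hDV.trans hV) hD).1 (by
        rw [φ.natural hV hDV, φ.natural hV hDV, hmn])⟩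
  refine fun V hV => ⟨hinj V hV, fun n => ?_⟩
  choose D hD hDV hxD using fun x : V => hB V hV x.1 x.2
  choose m hm using fun x : V => (h (D x) ((hDV x).trans hV) (hD x)).2 (res N (hDV x) n)
  obtain ⟨t, ht⟩ := Repr.exists_glue M D hDV (fun x hx => ⟨⟨x, hx⟩, hxD _⟩) m fun a b => by
    refine hinj _ (inf_le_left.trans ((hDV a).trans hV)) ?_
    rw [φ.natural ((hDV a).trans hV) inf_le_left, φ.natural ((hDV b).trans hV) inf_le_right, hm,
      hm, res_res, res_res]
  refine ⟨t, eq_of_locally N _ _ fun x hx => ?_⟩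
  refine ⟨D ⟨x, hx⟩, hDV _, hxD _, ?_⟩
  rw [← φ.natural hV, ht, hm]

/-- A basic open of a spectrum. -/
abbrev specBasic {A : CommRingCat.{u}} (f : A) : (Spec A).Opens := PrimeSpectrum.basicOpen f

theorem natural_span {X : Scheme.{u}} (M : X.Modules) {D V V' : X.Opens} (e : Γ(M, D)) (hV : V' ≤ D)
    (i : V ≤ V') (r : Γ(X, V')) :
    resF i r • res M (i.trans hV) e = res M i (r • res M hV e) := by
  rw [res_smul, res_res]

theorem isLocalizedModule_toOpen {A : CommRingCat.{u}} (M : ModuleCat.{u} A) (f : A) :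
    IsLocalizedModule.Away f (tilde.toOpen M (PrimeSpectrum.basicOpen f)).hom :=
  inferInstance

section Spec

variable {A : CommRingCat.{u}} (N : Type u) [AddCommGroup N] [Module A N] [Module.Invertible A N]

/-- The map to the sections of the associated module. -/
def toBasic (f : A) : N →ₗ[A] Γ(tilde (ModuleCat.of A N), specBasic f) :=
  (tilde.toOpen (ModuleCat.of A N) (specBasic f)).hom

theorem invertible_basic (f : A) :
    Module.Invertible Γ(Spec A, specBasic f)
      Γ(tilde (ModuleCat.of A N), specBasic f) := by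
  have : IsLocalizedModule (.powers f) (toBasic N f) :=
    isLocalizedModule_toOpen (ModuleCat.of A N) f
  exact Module.Invertible.of_isLocalization (Submonoid.powers f) (toBasic N f)

omit [Module.Invertible A N] in
theorem res_toBasic {f g : A}
    (h : specBasic f ≤ specBasic g) (n : N) :
    res (tilde (ModuleCat.of A N)) h (toBasic N g n) = toBasic N f n := rfl

theorem isUnit_algebraMap_of_le {f g : A}
    (h : specBasic f ≤ specBasic g) :
    IsUnit (algebraMap A Γ(Spec A, specBasic f) g) := by
  have h1 := isUnit_resF (X := Spec A) h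
    (IsLocalization.Away.algebraMap_isUnit (S := Γ(Spec A, specBasic g)) g)
  rw [IsAffineOpen.algebraMap_Spec_obj] at h1 ⊢
  have e := resF_resF h (le_top : specBasic g ≤ ⊤) ((Scheme.ΓSpecIso A).inv g)
  change IsUnit (resF h (resF (le_top : specBasic g ≤ ⊤) ((Scheme.ΓSpecIso A).inv g))) at h1
  rw [e] at h1
  exact h1

theorem isLineOn_tilde : IsLineOn (tilde (ModuleCat.of A N)) ⊤ := by
  intro x _
  obtain ⟨S, hS⟩ := ((Module.Invertible.linearEquiv A N).symm 1).exists_finset
  have h1 : (1 : A) = ∑ i ∈ S, i.1 i.2 := by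
    have h := congrArg (Module.Invertible.linearEquiv A N) hS
    rw [LinearEquiv.apply_symm_apply, map_sum] at h
    exact h.trans (Finset.sum_congr rfl fun i _ => contractLeft_apply _ _)
  obtain ⟨⟨φ, n₀⟩, hx⟩ : ∃ i : Module.Dual A N × N,
      x ∈ specBasic (i.1 i.2) := by
    by_contra hne
    push Not at hne
    refine (x : PrimeSpectrum A).isPrime.ne_top ((Ideal.eq_top_iff_one _).2 ?_)
    rw [h1]
    exact Ideal.sum_mem _ fun i _ => not_not.1 (hne i)
  set g := φ n₀
  set D : (Spec A).Opens := specBasic g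
  set M := tilde (ModuleCat.of A N)
  let e : Γ(M, D) := toBasic N g n₀
  let ψ : LinOn D (unitMod (Spec A)) M :=
    { app := fun V hV => LinearMap.toSpanSingleton Γ(Spec A, V) Γ(M, V) (res M hV e)
      natural := fun {V V'} hV i r => natural_span M e hV i r }
  have hψ : ψ.IsIsoOn := isIsoOn_of_basis ψ
    (fun V => ∃ f : A, V = specBasic f)
    (fun V _ x hx => by
      obtain ⟨_, ⟨f, rfl⟩, hxf, hfV⟩ :=
        PrimeSpectrum.isTopologicalBasis_basic_opens.exists_subset_of_mem_open hx V.isOpen
      exact ⟨_, ⟨f, rfl⟩, hfV, hxf⟩)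
    (by
      rintro _ hD ⟨f, rfl⟩
      have := invertible_basic N f
      refine Module.Invertible.bijective_of_surjective
        (f := LinearMap.toSpanSingleton Γ(Spec A, specBasic f)
          Γ(M, specBasic f) (res M hD e)) fun m => ?_
      have hloc : IsLocalizedModule (.powers f) (toBasic N f) :=
        isLocalizedModule_toOpen (ModuleCat.of A N) f
      obtain ⟨⟨n, ⟨_, j, rfl⟩⟩, hn⟩ := IsLocalizedModule.surj (.powers f) (toBasic N f) m
      have hn' : f ^ j • m = toBasic N f n := hn
      have hcomm : g • n = φ n • n₀ := by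
        have h := congrArg (TensorProduct.lift ((LinearMap.lsmul A N).comp φ))
          (Module.Invertible.tmul_comm (R := A) (m₁ := n₀) (m₂ := n))
        simpa using h
      have hu : IsUnit (algebraMap A Γ(Spec A, specBasic f) (g * f ^ j)) := by
        rw [map_mul, map_pow]
        exact (isUnit_algebraMap_of_le hD).mul ((isUnit_algebraMap_of_le le_rfl).pow j)
      refine ⟨↑hu.unit⁻¹ * algebraMap A _ (φ n), ?_⟩
      rw [LinearMap.toSpanSingleton_apply, res_toBasic, mul_smul, IsScalarTower.algebraMap_smul,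
        ← map_smul, ← hcomm, map_smul, ← hn', smul_smul]
      have h2 : (g * f ^ j) • m = (hu.unit : Γ(Spec A, specBasic f)) • m := by
        rw [IsUnit.unit_spec, IsScalarTower.algebraMap_smul]
      rw [h2, smul_smul, Units.inv_mul, one_smul])
  refine ⟨D, hx, le_top, e, fun V hV => ?_⟩
  exact hψ V hV

omit [Module.Invertible A N] in
theorem bijective_toBasic_top :
    Function.Bijective (tilde.toOpen (ModuleCat.of A N) ⊤).hom :=
  ConcreteCategory.bijective_of_isIso (tilde.toOpen (ModuleCat.of A N) ⊤)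

end Spec

/-- A line bundle on an affine open with given sections, extended by direct image. -/
theorem exists_module_of_invertible {X : Scheme.{u}} {U : X.Opens} (hU : IsAffineOpen U)
    (N : Type u) [AddCommGroup N] [Module Γ(X, U) N] [Module.Invertible Γ(X, U) N] :
    ∃ M : X.Modules, IsLineOn M U ∧
      (∀ V : X.Opens, Function.Bijective (res M (inf_le_left : V ⊓ U ≤ V))) ∧
      Nonempty (Γ(M, U) ≃ₗ[Γ(X, U)] N) := by
  set j := hU.fromSpec
  set T := tilde (ModuleCat.of Γ(X, U) N)
  set M : X.Modules := (Scheme.Modules.pushforward j).obj T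
  refine ⟨M, fun x hx => ?_, fun V => ?_, ?_⟩
  · obtain ⟨y, rfl⟩ : x ∈ j.opensRange := hU.opensRange_fromSpec.symm ▸ hx
    obtain ⟨W, hyW, -, e, he⟩ := isLineOn_tilde N y trivial
    refine ⟨j ''ᵁ W, ⟨y, hyW, rfl⟩, (j.image_le_opensRange W).trans hU.opensRange_fromSpec.le,
      (res T (j.preimage_image_eq W).le e : Γ(T, j ⁻¹ᵁ j ''ᵁ W)), fun V hV => ?_⟩
    have hVW : j ⁻¹ᵁ V ≤ W := (j.preimage_mono hV).trans (j.preimage_image_eq W).le
    have : IsIso (j.app V) := j.isIso_app V (hV.trans (j.image_le_opensRange W))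
    have h1 := (he _ hVW).comp (ConcreteCategory.bijective_of_isIso (j.app V))
    show Function.Bijective fun r : Γ(X, V) =>
      (j.app V r • res T (j.preimage_mono hV) (res T (j.preimage_image_eq W).le e) : Γ(T, j ⁻¹ᵁ V))
    simp only [res_res]
    exact h1
  · have hle : j ⁻¹ᵁ V ≤ j ⁻¹ᵁ (V ⊓ U) := fun y hy =>
      ⟨hy, hU.opensRange_fromSpec.le ⟨y, rfl⟩⟩
    refine ⟨Function.LeftInverse.injective (g := fun m : Γ(T, j ⁻¹ᵁ (V ⊓ U)) => res T hle m)
      fun m => ?_, fun m => ⟨res T hle m, ?_⟩⟩
    · exact (res_res T hle _ m).trans (res_self T _ m)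
    · exact (res_res T _ hle m).trans (res_self T _ m)
  · refine ⟨(LinearEquiv.ofBijective
      ({ toFun := fun n => (res T (le_top : j ⁻¹ᵁ U ≤ ⊤)
            ((tilde.toOpen (ModuleCat.of Γ(X, U) N) ⊤).hom n) : Γ(T, j ⁻¹ᵁ U))
         map_add' := fun a b => by rw [map_add]; exact res_add T _ _ _
         map_smul' := fun a n => by
          rw [map_smul, RingHom.id_apply]
          show res T _ _ = j.app U a • res T (le_top : j ⁻¹ᵁ U ≤ ⊤) _
          rw [hU.fromSpec_app_self]
          refine (res_smul T _ _ _).trans ?_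
          refine congrArg (· • _) ?_
          exact resF_resF (le_top : j ⁻¹ᵁ U ≤ ⊤) (le_top : (⊤ : (Spec Γ(X, U)).Opens) ≤ ⊤)
            ((Scheme.ΓSpecIso Γ(X, U)).inv a) } : N →ₗ[Γ(X, U)] Γ(M, U))
      ⟨fun a b h => (bijective_toBasic_top (A := Γ(X, U)) N).1 ?_, fun m => ?_⟩).symm⟩
    · have h' := congrArg (res T (hU.fromSpec_preimage_self).ge) h
      exact (res_self T le_rfl _).symm.trans (((res_res T _ _ _).symm.trans h').trans
        ((res_res T _ _ _).trans (res_self T le_rfl _)))
    · obtain ⟨n, hn⟩ := (bijective_toBasic_top (A := Γ(X, U)) N).2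
        (res T (hU.fromSpec_preimage_self).ge m)
      refine ⟨n, ?_⟩
      exact (congrArg (res T (le_top : j ⁻¹ᵁ U ≤ ⊤)) hn).trans
        ((res_res T _ _ _).trans (res_self T le_rfl m))

end Fermat.Agent.Pic.Bridge
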