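import Fermat.Agent.Pic.Bridge.Iso
import Fermat.Agent.Pic.Bridge.Tilde

/-!
# Every datum comes from an invertible module

The line bundles given by a datum on the two charts glue along the isomorphism on the overlap to
an invertible module with that datum.
-/

noncomputable section

universe u

open CategoryTheory TopologicalSpace Opposite AlgebraicGeometry
open Fermat.Agent.Pic.Cech Fermat.Agent.Pic.Repr

namespace Fermat.Agent.Pic.Bridge

/-- Two localisations of the same module agree. -/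
theorem exists_equiv_of_localisations {B B' N L L' : Type u} [CommRing B] [CommRing B']
    [AddCommGroup N] [Module B N] [AddCommGroup L] [Module B' L] [AddCommGroup L'] [Module B' L']
    (ρ : B →+* B') (t : B) (ht : IsUnit (ρ t))
    (hB : ∀ z : B', ∃ (n : ℕ) (b : B), ρ t ^ n * z = ρ b)
    (g : N →ₛₗ[ρ] L) (g' : N →ₛₗ[ρ] L')
    (hs : ∀ z : L, ∃ (n : ℕ) (x : N), ρ t ^ n • z = g x)
    (hk : ∀ x, g x = 0 → ∃ n : ℕ, t ^ n • x = 0)
    (hs' : ∀ z : L', ∃ (n : ℕ) (x : N), ρ t ^ n • z = g' x)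
    (hk' : ∀ x, g' x = 0 → ∃ n : ℕ, t ^ n • x = 0) :
    ∃ e : L ≃ₗ[B'] L', ∀ x, e (g x) = g' x := by
  let := Module.compHom L ρ
  let := Module.compHom L' ρ
  have loc : ∀ (L : Type u) [AddCommGroup L] [Module B' L] (g : N →ₛₗ[ρ] L),
      (∀ z : L, ∃ (n : ℕ) (x : N), ρ t ^ n • z = g x) →
      (∀ x, g x = 0 → ∃ n : ℕ, t ^ n • x = 0) →
      letI := Module.compHom L ρ
      IsLocalizedModule (Submonoid.powers t)
        ({ toFun := g, map_add' := map_add g, map_smul' := map_smulₛₗ g } : N →ₗ[B] L) := by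
    intro L _ _ g hs hk
    let := Module.compHom L ρ
    refine ⟨fun ⟨_, n, rfl⟩ => ?_, fun z => ?_, fun {x y} hxy => ?_⟩
    · rw [Module.End.isUnit_iff]
      show Function.Bijective fun z : L => ρ (t ^ n) • z
      rw [map_pow]
      obtain ⟨u, hu⟩ := ht.pow n
      rw [← hu]
      exact MulAction.bijective u
    · obtain ⟨n, x, hx⟩ := hs z
      refine ⟨⟨x, ⟨_, n, rfl⟩⟩, ?_⟩
      show ρ (t ^ n) • z = g x
      rw [map_pow, hx]
    · obtain ⟨n, hn⟩ := hk (x - y) (by rw [map_sub, sub_eq_zero]; exact hxy)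
      refine ⟨⟨_, n, rfl⟩, ?_⟩
      rw [smul_sub, sub_eq_zero] at hn
      exact hn
  have := loc L g hs hk
  have := loc L' g' hs' hk'
  let e₀ := IsLocalizedModule.linearEquiv (Submonoid.powers t)
    ({ toFun := g, map_add' := map_add g, map_smul' := map_smulₛₗ g } : N →ₗ[B] L)
    ({ toFun := g', map_add' := map_add g', map_smul' := map_smulₛₗ g' } : N →ₗ[B] L')
  refine ⟨{ e₀.toAddEquiv with map_smul' := fun b' z => ?_ }, fun x =>
    IsLocalizedModule.linearEquiv_apply (Submonoid.powers t)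
      ({ toFun := g, map_add' := map_add g, map_smul' := map_smulₛₗ g } : N →ₗ[B] L)
      ({ toFun := g', map_add' := map_add g', map_smul' := map_smulₛₗ g' } : N →ₗ[B] L') x⟩
  obtain ⟨n, b, hb⟩ := hB b'
  refine (ht.pow n).smul_left_cancel.1 ?_
  show ρ t ^ n • e₀ (b' • z) = ρ t ^ n • b' • e₀ z
  have h1 : ρ t ^ n • e₀ (b' • z) = e₀ (ρ t ^ n • b' • z) := by
    have h := map_smul e₀ (t ^ n) (b' • z)
    change e₀ (ρ (t ^ n) • b' • z) = ρ (t ^ n) • e₀ (b' • z) at h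
    rw [map_pow] at h
    exact h.symm
  rw [h1, smul_smul, smul_smul, hb]
  exact map_smul e₀ b z

namespace Charted

variable {k : Type u} [Field k] {C : Cover k} {R : Type u} [CommRing R] [Algebra k R]
  {X : Scheme.{u}} (𝒳 : Charted C R X)

/-- Two line bundles on the charts glue along an isomorphism on the overlap. -/
theorem exists_glued {M0 M1 : X.Modules} (h0 : IsLineOn M0 𝒳.U0) (h1 : IsLineOn M1 𝒳.U1)
    (hb0 : ∀ V : X.Opens, Function.Bijective (res M0 (inf_le_left : V ⊓ 𝒳.U0 ≤ V)))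
    (hb1 : ∀ V : X.Opens, Function.Bijective (res M1 (inf_le_left : V ⊓ 𝒳.U1 ≤ V)))
    (φ : LinOn (𝒳.U0 ⊓ 𝒳.U1) M0 M1) (hφ : φ.IsIsoOn) :
    ∃ (M : X.Modules) (ψ0 : LinOn 𝒳.U0 M M0) (ψ1 : LinOn 𝒳.U1 M M1),
      IsLineOn M ⊤ ∧ ψ0.IsIsoOn ∧ ψ1.IsIsoOn ∧
        ∀ (V : X.Opens) (hV : V ≤ 𝒳.U0 ⊓ 𝒳.U1) (m : Γ(M, V)),
          φ.app V hV (ψ0.app V (hV.trans inf_le_left) m) =
            ψ1.app V (hV.trans inf_le_right) m := by
  set j := (𝒳.U0 ⊓ 𝒳.U1).ι
  let G : X.Modules := (Scheme.Modules.pushforward j).obj (M1.restrict j)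
  have hle : ∀ V : X.Opens, j ''ᵁ j ⁻¹ᵁ V ≤ 𝒳.U0 ⊓ 𝒳.U1 := fun V =>
    (j.image_le_opensRange _).trans (Scheme.Opens.opensRange_ι _).le
  have hge : ∀ V : X.Opens, V ⊓ (𝒳.U0 ⊓ 𝒳.U1) ≤ j ''ᵁ j ⁻¹ᵁ V := fun V => by
    rw [j.image_preimage_eq_opensRange_inf, Scheme.Opens.opensRange_ι, inf_comm]
  have hsm : ∀ (M : X.Modules) (V : X.Opens) (r : Γ(X, V)) (m : Γ(M, j ''ᵁ j ⁻¹ᵁ V)),
      toRestrict j (resF (j.image_preimage_le V) r • m) = j.app V r • toRestrict j m := by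
    intro M V r m
    rw [toRestrict_smul]
    refine congrArg (fun s : Γ((𝒳.U0 ⊓ 𝒳.U1).toScheme, j ⁻¹ᵁ V) => s • toRestrict j m) ?_
    rw [j.appIso_hom]
    show resF (j.preimage_image_eq (j ⁻¹ᵁ V)).ge (j.app _ (resF (j.image_preimage_le V) r)) = _
    rw [app_resF, resF_resF, resF_self]
  let a : M0 ⟶ G := LinOn.toHom
    { app := fun V _ =>
        { toFun := fun m => toRestrict j (φ.app _ (hle V) (res M0 (j.image_preimage_le V) m))
          map_add' := fun m n => by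
            rw [res_add, map_add]
            rfl
          map_smul' := fun r m => by
            rw [res_smul, map_smul, hsm]
            rfl }
      natural := fun {V V'} _ i m => by
        show toRestrict j (φ.app _ (hle V) (res M0 _ (res M0 i m))) =
          res (M1.restrict j) (j.preimage_mono i)
            (toRestrict j (φ.app _ (hle V') (res M0 (j.image_preimage_le V') m)))
        rw [toRestrict_res, ← φ.natural (hle V'), res_res, res_res] }
  let b : M1 ⟶ G := (Scheme.Modules.restrictAdjunction j).unit.app M1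
  let P : X.Modules := Limits.pullback a b
  let p : P ⟶ M0 := Limits.pullback.fst a b
  let q : P ⟶ M1 := Limits.pullback.snd a b
  have hsq : ∀ V : X.Opens, IsPullback (p.app V) (q.app V) (a.app V) (b.app V) := fun V =>
    ((IsPullback.of_hasPullback a b).map (Scheme.Modules.toPresheaf _)).map
      ((CategoryTheory.evaluation _ _).obj (op V))
  have hres : ∀ (M : X.Modules) (U V : X.Opens),
      (∀ W : X.Opens, Function.Bijective (res M (inf_le_left : W ⊓ U ≤ W))) →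
        j ''ᵁ j ⁻¹ᵁ V ≤ U → V ⊓ U ≤ j ''ᵁ j ⁻¹ᵁ V →
          Function.Bijective (res M (j.image_preimage_le V)) := by
    intro M U V hb h h'
    have key : ∀ {A B : X.Opens}, A = B → ∀ (hA : A ≤ V) (hB : B ≤ V),
        Function.Bijective (res M hA) → Function.Bijective (res M hB) := by
      rintro A _ rfl _ _ hA
      exact hA
    exact key (le_antisymm h' (le_inf (j.image_preimage_le V) h)) _ _ (hb V)
  have hbv : ∀ V : X.Opens, V ≤ 𝒳.U0 → Function.Bijective (b.app V) := fun V hV =>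
    hres M1 𝒳.U1 V hb1 ((hle V).trans inf_le_right) fun x hx => hge V ⟨hx.1, hV hx.1, hx.2⟩
  have hav : ∀ V : X.Opens, V ≤ 𝒳.U1 → Function.Bijective (a.app V) := fun V hV =>
    Function.Bijective.comp (g := fun x => toRestrict j (φ.app _ (hle V) x)) (hφ _ (hle V))
      (hres M0 𝒳.U0 V hb0 ((hle V).trans inf_le_left) fun x hx => hge V ⟨hx.1, hx.2, hV hx.1⟩)
  have hp : (LinOn.ofHom p 𝒳.U0).IsIsoOn := fun V hV => by
    have := (hsq V).isIso_fst_of_isIso ((ConcreteCategory.isIso_iff_bijective _).2 (hbv V hV))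
    exact ConcreteCategory.bijective_of_isIso (p.app V)
  have hq : (LinOn.ofHom q 𝒳.U1).IsIsoOn := fun V hV => by
    have := (hsq V).flip.isIso_fst_of_isIso ((ConcreteCategory.isIso_iff_bijective _).2 (hav V hV))
    exact ConcreteCategory.bijective_of_isIso (q.app V)
  refine ⟨P, LinOn.ofHom p _, LinOn.ofHom q _, fun x _ => ?_, hp, hq, fun V hV m => ?_⟩
  · rcases 𝒳.mem_chart x with hx | hx
    · obtain ⟨V, hxV, hV, e, he⟩ := h0 x hx
      exact ⟨V, hxV, le_top, _,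
        he.map ((LinOn.ofHom p 𝒳.U0).inverse hp) (LinOn.isIsoOn_inverse _ hp) hV⟩
    · obtain ⟨V, hxV, hV, e, he⟩ := h1 x hx
      exact ⟨V, hxV, le_top, _,
        he.map ((LinOn.ofHom q 𝒳.U1).inverse hq) (LinOn.isIsoOn_inverse _ hq) hV⟩
  · have hVj : V ≤ j ''ᵁ j ⁻¹ᵁ V := fun x hx => hge V ⟨hx, hV hx⟩
    have h := congrArg (fun f : P ⟶ G => res M1 hVj (ofRestrict j (f.app V m)))
      (Limits.pullback.condition (f := a) (g := b))
    refine (?_ : _ = _).trans (h.trans ?_)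
    · show _ = res M1 hVj (φ.app _ (hle V) (res M0 (j.image_preimage_le V) (p.app V m)))
      rw [← φ.natural (hle V), res_res, res_self]
      rfl
    · show res M1 hVj (res M1 (j.image_preimage_le V) (q.app V m)) = q.app V m
      rw [res_res, res_self]

/-- An isomorphism of the sections over the overlap extends to an isomorphism of line bundles on
the overlap. -/
theorem exists_isoOn_overlap {M0 M1 : X.Modules} (h0 : IsLineOn M0 (𝒳.U0 ⊓ 𝒳.U1))
    (h1 : IsLineOn M1 (𝒳.U0 ⊓ 𝒳.U1)) (d : 𝒳.Sec01 M0 ≃ₗ[C.RB01 R] 𝒳.Sec01 M1) :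
    ∃ φ : LinOn (𝒳.U0 ⊓ 𝒳.U1) M0 M1, φ.IsIsoOn ∧
      ∀ z, φ.app _ le_rfl z = Sec01.val (d (𝒳.sec01 z)) := by
  have key : ∀ {A B : X.Modules}, IsLineOn A (𝒳.U0 ⊓ 𝒳.U1) →
      ∀ e : 𝒳.Sec01 A ≃ₗ[C.RB01 R] 𝒳.Sec01 B, ∃ φ : LinOn (𝒳.U0 ⊓ 𝒳.U1) A B,
        ∀ z, φ.app _ le_rfl z = Sec01.val (e (𝒳.sec01 z)) := fun {A B} hA e => by
    obtain ⟨φ, hφ⟩ := exists_linOn_app (N := B) 𝒳.affine01 hA
      { toFun := fun z => Sec01.val (e (𝒳.sec01 z))
        map_add' := fun z w => congrArg Sec01.val (map_add e (𝒳.sec01 z) (𝒳.sec01 w))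
        map_smul' := fun r z => by
          obtain ⟨b, rfl⟩ := 𝒳.e01.surjective r
          exact congrArg Sec01.val (map_smul e b (𝒳.sec01 z)) }
    exact ⟨φ, fun z => LinearMap.congr_fun hφ z⟩
  obtain ⟨φ, hφ⟩ := key h0 d
  obtain ⟨φ', hφ'⟩ := key h1 d.symm
  refine ⟨φ, fun V hV => ⟨Function.LeftInverse.injective (g := φ'.app V hV) fun m => ?_,
    Function.RightInverse.surjective (g := φ'.app V hV) fun m => ?_⟩, hφ⟩
  · exact linOn_ext_affine 𝒳.affine01 h0 (φ.comp φ') (LinOn.id _ _) (fun z => by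
      show φ'.app _ le_rfl (φ.app _ le_rfl z) = z
      rw [hφ, hφ']
      exact congrArg Sec01.val (d.symm_apply_apply (𝒳.sec01 z))) V hV m
  · exact linOn_ext_affine 𝒳.affine01 h1 (φ'.comp φ) (LinOn.id _ _) (fun z => by
      show φ.app _ le_rfl (φ'.app _ le_rfl z) = z
      rw [hφ, hφ']
      exact congrArg Sec01.val (d.apply_symm_apply (𝒳.sec01 z))) V hV m

/-- Every datum comes from an invertible module. -/
theorem exists_module (L : Datum C R) :
    ∃ (M : X.Modules) (hM : M.IsInvertible), Nonempty (L.toPre.Equiv (𝒳.toDatum M hM).toPre) := by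
  let := Module.compHom L.N0 (R := C.RB0 R) 𝒳.e0.symm.toRingHom
  let := Module.compHom L.N1 (R := C.RB1 R) 𝒳.e1.symm.toRingHom
  have := invertible_of_equiv (A := Γ(X, 𝒳.U0)) (N := L.N0) (N' := L.N0) 𝒳.e0.symm
    (AddEquiv.refl _) fun _ _ => rfl
  have := invertible_of_equiv (A := Γ(X, 𝒳.U1)) (N := L.N1) (N' := L.N1) 𝒳.e1.symm
    (AddEquiv.refl _) fun _ _ => rfl
  obtain ⟨M0, hl0, hb0, ⟨θ0⟩⟩ := exists_module_of_invertible 𝒳.affine0 L.N0
  obtain ⟨M1, hl1, hb1, ⟨θ1⟩⟩ := exists_module_of_invertible 𝒳.affine1 L.N1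
  let t0 : 𝒳.Sec0 M0 ≃ₗ[C.RB0 R] L.N0 :=
    { θ0.toAddEquiv with
      map_smul' := fun a x => (map_smul θ0 (𝒳.e0 a) (Sec0.val x)).trans
        (show 𝒳.e0.symm (𝒳.e0 a) • θ0 (Sec0.val x) = _ by rw [RingEquiv.symm_apply_apply]; rfl) }
  let t1 : 𝒳.Sec1 M1 ≃ₗ[C.RB1 R] L.N1 :=
    { θ1.toAddEquiv with
      map_smul' := fun a x => (map_smul θ1 (𝒳.e1 a) (Sec1.val x)).trans
        (show 𝒳.e1.symm (𝒳.e1 a) • θ1 (Sec1.val x) = _ by rw [RingEquiv.symm_apply_apply]; rfl) }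
  obtain ⟨d0, hd0⟩ := exists_equiv_of_localisations (C.ρ0 R).toRingHom (C.T0 R)
    (IsUnit.of_mul_eq_one _ (C.T_mul_T' R)) (C.exists_T_pow_mul R)
    ((𝒳.resSec0 M0).comp t0.symm.toLinearMap) L.f0
    (fun z => by
      obtain ⟨n, s, hs⟩ := exists_res_eq_pow_smul_of_eq 𝒳.affine0 hl0 _ 𝒳.basic0 inf_le_left
        (Sec01.val z)
      refine ⟨n, t0 (𝒳.sec0 s), ?_⟩
      show C.T R ^ n • z = 𝒳.resSec0 M0 (t0.symm (t0 (𝒳.sec0 s)))
      rw [t0.symm_apply_apply]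
      show C.T R ^ n • z = 𝒳.sec01 (res M0 inf_le_left s)
      rw [hs, ← resF_pow, ← map_pow, 𝒳.res0, map_pow (C.ρ0 R), C.ρ0_T0]
      rfl)
    (fun x hx => by
      obtain ⟨n, hn⟩ := exists_pow_smul_eq_zero_of_eq 𝒳.affine0 hl0 _ 𝒳.basic0 inf_le_left
        (Sec0.val (t0.symm x)) hx
      refine ⟨n, t0.symm.injective ?_⟩
      rw [map_smul, map_zero]
      show Sec0.val (C.T0 R ^ n • t0.symm x) = 0
      rw [Sec0.val_smul, map_pow, hn])
    L.surj0 L.ker0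
  obtain ⟨d1, hd1⟩ := exists_equiv_of_localisations (C.ρ1 R).toRingHom (C.T1 R)
    (IsUnit.of_mul_eq_one _ (C.T'_mul_T R)) (C.exists_T'_pow_mul R)
    ((𝒳.resSec1 M1).comp t1.symm.toLinearMap) L.f1
    (fun z => by
      obtain ⟨n, s, hs⟩ := exists_res_eq_pow_smul_of_eq 𝒳.affine1 hl1 _ 𝒳.basic1 inf_le_right
        (Sec01.val z)
      refine ⟨n, t1 (𝒳.sec1 s), ?_⟩
      show C.T' R ^ n • z = 𝒳.resSec1 M1 (t1.symm (t1 (𝒳.sec1 s)))
      rw [t1.symm_apply_apply]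
      show C.T' R ^ n • z = 𝒳.sec01 (res M1 inf_le_right s)
      rw [hs, ← resF_pow, ← map_pow, 𝒳.res1, map_pow (C.ρ1 R), C.ρ1_T1]
      rfl)
    (fun x hx => by
      obtain ⟨n, hn⟩ := exists_pow_smul_eq_zero_of_eq 𝒳.affine1 hl1 _ 𝒳.basic1 inf_le_right
        (Sec1.val (t1.symm x)) hx
      refine ⟨n, t1.symm.injective ?_⟩
      rw [map_smul, map_zero]
      show Sec1.val (C.T1 R ^ n • t1.symm x) = 0
      rw [Sec1.val_smul, map_pow, hn])
    L.surj1 L.ker1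
  obtain ⟨φ, hiso, hφ⟩ := 𝒳.exists_isoOn_overlap (hl0.mono inf_le_left) (hl1.mono inf_le_right)
    (d0.trans d1.symm)
  obtain ⟨M, ψ0, ψ1, hM, hi0, hi1, hcomp⟩ := 𝒳.exists_glued hl0 hl1 hb0 hb1 φ hiso
  let c0 : 𝒳.Sec0 M ≃ₗ[C.RB0 R] 𝒳.Sec0 M0 := LinearEquiv.ofBijective
    ({ toFun := fun x => 𝒳.sec0 (ψ0.app _ le_rfl (Sec0.val x))
       map_add' := fun x y => map_add (ψ0.app _ le_rfl) x.val y.val
       map_smul' := fun a x => map_smul (ψ0.app _ le_rfl) (𝒳.e0 a) x.val } :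
      𝒳.Sec0 M →ₗ[C.RB0 R] 𝒳.Sec0 M0) (hi0 _ le_rfl)
  let c1 : 𝒳.Sec1 M ≃ₗ[C.RB1 R] 𝒳.Sec1 M1 := LinearEquiv.ofBijective
    ({ toFun := fun x => 𝒳.sec1 (ψ1.app _ le_rfl (Sec1.val x))
       map_add' := fun x y => map_add (ψ1.app _ le_rfl) x.val y.val
       map_smul' := fun a x => map_smul (ψ1.app _ le_rfl) (𝒳.e1 a) x.val } :
      𝒳.Sec1 M →ₗ[C.RB1 R] 𝒳.Sec1 M1) (hi1 _ le_rfl)
  let c01 : 𝒳.Sec01 M ≃ₗ[C.RB01 R] 𝒳.Sec01 M0 := LinearEquiv.ofBijective
    ({ toFun := fun x => 𝒳.sec01 (ψ0.app _ inf_le_left (Sec01.val x))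
       map_add' := fun x y => map_add (ψ0.app _ inf_le_left) x.val y.val
       map_smul' := fun a x => map_smul (ψ0.app _ inf_le_left) (𝒳.e01 a) x.val } :
      𝒳.Sec01 M →ₗ[C.RB01 R] 𝒳.Sec01 M0)
    (hi0 _ inf_le_left)
  refine ⟨M, isInvertible_of_isLineOn hM, ⟨Pre.Equiv.symm
    { e0 := c0.trans t0
      e1 := c1.trans t1
      e01 := c01.trans d0
      comm0 := fun x => ?_
      comm1 := fun y => ?_ }⟩⟩
  · show d0 (c01 (𝒳.resSec0 M x)) = L.f0 (t0 (c0 x))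
    rw [← hd0]
    refine congrArg d0 ?_
    show _ = 𝒳.resSec0 M0 (t0.symm (t0 (c0 x)))
    rw [t0.symm_apply_apply]
    exact congrArg 𝒳.sec01 (ψ0.natural le_rfl inf_le_left (Sec0.val x))
  · show d0 (c01 (𝒳.resSec1 M y)) = L.f1 (t1 (c1 y))
    have h := hcomp _ le_rfl (res M inf_le_right (Sec1.val y))
    rw [hφ, ψ1.natural le_rfl inf_le_right] at h
    have h' : d1.symm (d0 (c01 (𝒳.resSec1 M y))) = 𝒳.resSec1 M1 (c1 y) := congrArg 𝒳.sec01 h
    rw [← d1.apply_symm_apply (d0 _), h', ← hd1]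
    refine congrArg d1 ?_
    show _ = 𝒳.resSec1 M1 (t1.symm (t1 (c1 y)))
    rw [t1.symm_apply_apply]

end Charted

end Fermat.Agent.Pic.Bridge
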