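import Fermat.Agent.Pic.Bridge.AffinePoints
import Fermat.Agent.Pic.Bridge.OfDatum
import Fermat.Agent.Pic.Repr.Classify

/-!
# Morphisms to a scheme representing the degree zero condition from data

Modules on `C × Spec R` are isomorphic locally on the base iff their data are, so a natural family
of data of degree zero over the affine points of `T` is a morphism from `T`.
-/

noncomputable section

universe u

open CategoryTheory CategoryTheory.Limits AlgebraicGeometry AlgebraicCurve TopologicalSpace
open AlgebraicGeometry.RelPicard NeronModelInfra GoodReductionJacobian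
open Fermat.Agent.Pic.Cech Fermat.Agent.Pic.Repr Fermat.Agent.Pic.Bridge

namespace Fermat.Agent.Pic.Bridge

variable {k : Type u} [Field k] {D : Cover k} {R R' : Type u} [CommRing R] [CommRing R']
  [Algebra k R] [Algebra k R'] [Algebra R R'] [IsScalarTower k R R']

/-- Base changes of isomorphic data are isomorphic. -/
theorem nonempty_equiv_baseChange {P Q : Pre D R} {P' Q' : Pre D R'} (e : P.Equiv Q)
    (h : BaseChange P P') (h' : BaseChange Q Q') : Nonempty (P'.Equiv Q') :=
  ⟨(h.uniqueEquiv (P.toBaseChange R')).trans
    ((e.baseChange R').trans ((Q.toBaseChange R').uniqueEquiv h'))⟩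

/-- Isomorphic after the localisations at the members of a covering family. -/
def LocEquiv (L L' : Datum D R) : Prop :=
  ∀ x : PrimeSpectrum R, ∃ s : R, s ∉ x.asIdeal ∧
    Nonempty ((L.toPre.baseChange (Localization.Away s)).Equiv
      (L'.toPre.baseChange (Localization.Away s)))

end Fermat.Agent.Pic.Bridge

namespace Fermat.Agent.Pic.Parameter

variable {k : Type u} [Field k] [IsAlgClosed k] {C : Scheme.{u}} [IsIntegral C]
  {c : C ⟶ Spec (CommRingCat.of k)} [IsProper c] [SmoothOfRelativeDimension 1 c]
  (p : Parameter c) {T : Scheme.{u}} {t : T ⟶ Spec (CommRingCat.of k)}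
  {R R' : Type u} [CommRing R] [CommRing R'] [Algebra k R] [Algebra k R'] [Algebra R R']
  [IsScalarTower k R R']

/-- The datum of the restriction to an affine point. -/
def datumAt (L : (pullback c t).Modules) (hL : L.IsInvertible)
    (f : SchemeHomOver (specMap k R) t) : Datum p.cover R :=
  (p.charted R).toDatum (pullMod f L) (hL.pullback _)

/-- The datum of a pullback along a change of base rings is a base change. -/
theorem nonempty_baseChange_pullMod (A : (prodSpec c R).Modules) (hA : A.IsInvertible) :
    Nonempty (BaseChange ((p.charted R).toDatum A hA).toPre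
      ((p.charted R').toDatum (pullMod (specOver (k := k) R R') A) (hA.pullback _)).toPre) :=
  Charted.nonempty_baseChange (p.isHom_charted R R') hA

/-- The data at affine points form a natural family. -/
theorem nonempty_baseChange_datumAt (L : (pullback c t).Modules) (hL : L.IsInvertible)
    (f : SchemeHomOver (specMap k R) t) :
    Nonempty (BaseChange (p.datumAt L hL f).toPre
      (p.datumAt L hL (postComp f (specOver (k := k) R R'))).toPre) :=
  ⟨(p.nonempty_baseChange_pullMod (R' := R') _ _).some.trans
    (((p.charted R').nonempty_iso_iff _ _).1 ⟨pullbackPostComp f (specOver R R') L⟩).some⟩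

/-- Modules are isomorphic locally on the base iff their data are. -/
theorem locIso_iff_locEquiv {A A' : (prodSpec c R).Modules} (hA : A.IsInvertible)
    (hA' : A'.IsInvertible) :
    LocIso A A' ↔ LocEquiv ((p.charted R).toDatum A hA) ((p.charted R).toDatum A' hA') := by
  constructor
  · intro h x
    obtain ⟨U, hx, hU⟩ := h x
    obtain ⟨_, ⟨s, rfl⟩, hxs, hsU⟩ :=
      PrimeSpectrum.isTopologicalBasis_basic_opens.exists_subset_of_mem_open hx U.isOpen
    refine ⟨s, hxs, ?_⟩
    obtain ⟨e⟩ := hU _ (specOver (k := k) R (Localization.Away s))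
      ((PrimeSpectrum.localization_away_comap_range (Localization.Away s) s).trans_subset hsU)
    exact ⟨((Pre.toBaseChange _ _).uniqueEquiv (p.nonempty_baseChange_pullMod A hA).some).trans
      ((((p.charted _).nonempty_iso_iff _ _).1 ⟨e⟩).some.trans
        ((p.nonempty_baseChange_pullMod A' hA').some.uniqueEquiv (Pre.toBaseChange _ _)))⟩
  · intro h
    refine LocIso.of_openOver fun x => ?_
    obtain ⟨s, hs, ⟨e⟩⟩ := h x
    let ψ := specOver (k := k) R (Localization.Away s)
    have : IsOpenImmersion ψ.1 := IsOpenImmersion.of_isLocalization s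
    obtain ⟨e'⟩ : Nonempty (pullMod ψ A ≅ pullMod ψ A') :=
      ((p.charted _).nonempty_iso_iff (hA.pullback _) (hA'.pullback _)).2
        ⟨((p.nonempty_baseChange_pullMod A hA).some.uniqueEquiv (Pre.toBaseChange _ _)).trans
          (e.trans ((Pre.toBaseChange _ _).uniqueEquiv
            (p.nonempty_baseChange_pullMod A' hA').some))⟩
    refine ⟨ψ.1.opensRange, ?_, ?_⟩
    · show x ∈ Set.range ψ.1
      exact (PrimeSpectrum.localization_away_comap_range (Localization.Away s) s).ge hs
    · rw [← postComp_liftOver ψ _ le_rfl]
      exact ⟨(pullbackPostComp ψ _ A).symm ≪≫ (Scheme.Modules.pullback _).mapIso e' ≪≫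
        pullbackPostComp ψ _ A'⟩

variable {ε : SchemeHomOver (𝟙 (Spec (CommRingCat.of k))) c} {D : RelativePic0Designation k c}
  (h : RepresentsRelSubPic c ε (p.degZero ε) D)

include h in
/-- A module with fibres of degree zero has a unique classifying map. -/
theorem existsUnique_classify_degZero (L : (pullback c t).Modules) (hL : L.IsInvertible)
    (hdeg : p.FibresDegZero L hL) :
    ∃! g : SchemeHomOver t D.toBase, LocIso (pullMod g h.poincare.L) L :=
  existsUnique_classify_module h L hL fun U M e =>
    (hdeg.pullback (openOver t U)).of_iso M.isInvertible e.some.symm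

/-- The datum of the universal bundle at an affine point. -/
abbrev pointDatum (g : SchemeHomOver (specMap k R) D.toBase) : Datum p.cover R :=
  p.datumAt h.poincare.L h.poincare.isInvertible g

/-- Affine points are determined by their data. -/
theorem eq_of_locEquiv (g g' : SchemeHomOver (specMap k R) D.toBase)
    (e : LocEquiv (p.pointDatum h g) (p.pointDatum h g')) : g = g' :=
  eq_of_locIso h g g' ((p.locIso_iff_locEquiv _ _).2 e)

/-- Points are determined by the data of their restrictions to affine charts. -/
theorem eq_of_locEquiv_charts (g g' : SchemeHomOver t D.toBase)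
    (e : ∀ (R : Type u) [CommRing R] [Algebra k R] (f : SchemeHomOver (specMap k R) t),
      IsOpenImmersion f.1 → LocEquiv (p.pointDatum h (postComp g f))
        (p.pointDatum h (postComp g' f))) : g = g' :=
  hom_ext_of_charts g g' fun x => by
    obtain ⟨R, _, _, φ, hφ, hx⟩ := exists_affine_chart t x
    exact ⟨R, _, _, φ, hφ, hx, p.eq_of_locEquiv h _ _ (e R φ hφ)⟩

include h in
/-- A datum with fibres of degree zero is that of a unique point. -/
theorem existsUnique_point (L : Datum p.cover R)
    (hdeg : ∀ (K : Type u) [Field K] [Algebra k K] [Algebra R K] [IsScalarTower k R K],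
      (L.baseChange K).toPre.chi = (unitPre p.cover k).chi) :
    ∃! g : SchemeHomOver (specMap k R) D.toBase, LocEquiv (p.pointDatum h g) L := by
  obtain ⟨M, hM, ⟨eM⟩⟩ := (p.charted R).exists_module L
  have hdM : p.FibresDegZero M hM := fun K _ _ f => by
    obtain ⟨_, _, rfl⟩ := exists_algebra_specOver f
    refine (chi_eq_of_equiv ?_).trans (hdeg K)
    exact (nonempty_equiv_baseChange eM.symm (p.nonempty_baseChange_pullMod M hM).some
      (L.toPre.toBaseChange K)).some
  obtain ⟨g, hg, huniq⟩ := p.existsUnique_classify_degZero h M hM hdM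
  have key : ∀ g' : SchemeHomOver (specMap k R) D.toBase,
      LocIso (pullMod g' h.poincare.L) M ↔ LocEquiv (p.pointDatum h g') L := fun g' => by
    rw [p.locIso_iff_locEquiv (h.poincare.isInvertible.pullback _) hM]
    exact forall_congr' fun x => exists_congr fun s => and_congr_right fun _ =>
      ⟨fun ⟨e⟩ => ⟨e.trans (eM.baseChange _).symm⟩, fun ⟨e⟩ => ⟨e.trans (eM.baseChange _)⟩⟩
  exact ⟨g, (key g).1 hg, fun g' hg' => huniq g' ((key g').2 hg')⟩

include h in
/-- A natural family of data of degree zero over the affine points of `T` is a morphism. -/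
theorem existsUnique_of_data
    (L : ∀ (R : Type u) [CommRing R] [Algebra k R], SchemeHomOver (specMap k R) t →
      Datum p.cover R)
    (hnat : ∀ (R R' : Type u) [CommRing R] [CommRing R'] [Algebra k R] [Algebra k R']
      [Algebra R R'] [IsScalarTower k R R'] (f : SchemeHomOver (specMap k R) t),
      Nonempty (BaseChange (L R f).toPre (L R' (postComp f (specOver R R'))).toPre))
    (hdeg : ∀ (K : Type u) [Field K] [Algebra k K] (f : SchemeHomOver (specMap k K) t),
      (L K f).toPre.chi = (unitPre p.cover k).chi) :
    ∃! g : SchemeHomOver t D.toBase, ∀ (R : Type u) [CommRing R] [Algebra k R]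
      (f : SchemeHomOver (specMap k R) t), LocEquiv (p.pointDatum h (postComp g f)) (L R f) := by
  have hpt : ∀ (R : Type u) [CommRing R] [Algebra k R] (f : SchemeHomOver (specMap k R) t),
      ∃! g : SchemeHomOver (specMap k R) D.toBase, LocEquiv (p.pointDatum h g) (L R f) :=
    fun R _ _ f => p.existsUnique_point h (L R f) fun K _ _ _ _ => by
      rw [← hdeg K (postComp f (specOver R K))]
      exact chi_eq_of_equiv (((L R f).toPre.toBaseChange K).uniqueEquiv (hnat R K f).some)
  choose G hG huniq using fun (R : Type u) (i : CommRing R) (j : Algebra k R) f => @hpt R i j f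
  obtain ⟨g, hg, hgu⟩ := existsUnique_of_affinePoints (y := D.toBase)
    (fun R i j f => G R i j f) fun R R' _ _ _ _ _ _ f => by
      refine (huniq R' _ _ _ _ ?_).symm
      obtain ⟨A, hA, ⟨eA⟩⟩ := (p.charted R).exists_module (L R f)
      obtain ⟨A', hA', ⟨eA'⟩⟩ :=
        (p.charted R').exists_module (L R' (postComp f (specOver R R')))
      have h1 : LocIso (pullMod (G R _ _ f) h.poincare.L) A :=
        (p.locIso_iff_locEquiv _ hA).2 fun x =>
          let ⟨s, hs, ⟨e⟩⟩ := hG R _ _ f x
          ⟨s, hs, ⟨e.trans (eA.baseChange _)⟩⟩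
      obtain ⟨e2⟩ := ((p.charted R').nonempty_iso_iff (hA.pullback _) hA').2
        ⟨(nonempty_equiv_baseChange eA.symm
          (p.nonempty_baseChange_pullMod (R' := R') A hA).some (hnat R R' f).some).some.trans eA'⟩
      have h2 : LocIso (pullMod (postComp (G R _ _ f) (specOver R R')) h.poincare.L) A' :=
        ((LocIso.of_iso (pullbackPostComp _ _ _).symm).trans
          (h1.pullback (specOver R R'))).trans (LocIso.of_iso e2)
      intro x
      obtain ⟨s, hs, ⟨e⟩⟩ := (p.locIso_iff_locEquiv (h.poincare.isInvertible.pullback _) hA').1 h2 x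
      exact ⟨s, hs, ⟨e.trans (eA'.baseChange _).symm⟩⟩
  refine ⟨g, fun R i j f => ?_, fun g' hg' => hgu g' fun R i j f => huniq R i j f _ (hg' R f)⟩
  rw [hg R f]
  exact hG R i j f

end Fermat.Agent.Pic.Parameter
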