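import Fermat.Agent.Pic.Cech.Factor

/-!
# The Euler characteristic of isomorphic data

The Euler characteristic depends only on the isomorphism class of a datum, and that of the structure
sheaf does not depend on the field.
-/

noncomputable section

namespace Fermat.Agent.Pic.Bridge

universe u

open Fermat.Agent.Pic.Cech

variable {k : Type u} [Field k] {C : Cover k}

theorem finrank_H1_eq_of_equiv {K : Type u} [Field K] [Algebra k K] {P P' : Pre C K}
    (e : P.Equiv P') : Module.finrank K P.H1 = Module.finrank K P'.H1 := by
  refine (Submodule.Quotient.equiv (LinearMap.range P.diff) (LinearMap.range P'.diff)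
    (e.e01.restrictScalars K) ?_).finrank_eq
  refine le_antisymm ?_ ?_
  · rintro _ ⟨_, ⟨q, rfl⟩, rfl⟩
    exact ⟨e.toHom.prod q, e.toHom.diff_prod q⟩
  · rintro _ ⟨q, rfl⟩
    refine ⟨e.e01.symm (P'.diff q), ⟨e.symm.toHom.prod q, e.symm.toHom.diff_prod q⟩, ?_⟩
    exact e.e01.apply_symm_apply _

/-- Isomorphic data have the same Euler characteristic. -/
theorem chi_eq_of_equiv {K : Type u} [Field K] [Algebra k K] {P P' : Pre C K} (e : P.Equiv P') :
    P.chi = P'.chi := by
  rw [Pre.chi, Pre.chi, e.h0.finrank_eq, finrank_H1_eq_of_equiv e]

/-- The Euler characteristic of the structure sheaf does not depend on the field. -/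
theorem chi_unitPre (K : Type u) [Field K] [Algebra k K] :
    (unitPre C K).chi = (unitPre C k).chi := by
  obtain ⟨r, -, h⟩ := (unitDatum C k).exists_chi
  have h1 := h K (unitDatum C K) (unitBaseChange C k K) default
  have h2 := h k (unitDatum C k) (unitBaseChange C k k) default
  rw [Subsingleton.elim ((default : PrimeSpectrum K).comap (algebraMap k K))
    ((default : PrimeSpectrum k).comap (algebraMap k k))] at h1
  exact h1.trans h2.symm

end Fermat.Agent.Pic.Bridge
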