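import Fermat.Agent.Pic.Bridge.ToDatum
import Fermat.Agent.Pic.Curve.ChartsHom
import Fermat.Agent.Pic.Repr.OConnected

/-!
# Functions on `C × T` for a curve `C`

The functions on `C × T` are those on `T`, for a proper curve `C` with a parameter.
-/

noncomputable section

universe u

open CategoryTheory CategoryTheory.Limits AlgebraicGeometry AlgebraicCurve
open AlgebraicGeometry.RelPicard NeronModelInfra
open Fermat.Agent.Pic.Repr Fermat.Agent.Pic.Bridge

namespace Fermat.Agent.Pic

variable {k : Type u} [Field k]

/-- An affine scheme over `k` is a spectrum of a `k`-algebra. -/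
theorem exists_specMap_iso {T : Scheme.{u}} [IsAffine T] (t : T ⟶ Spec (CommRingCat.of k)) :
    ∃ (R : Type u) (_ : CommRing R) (_ : Algebra k R) (f : SchemeHomOver (specMap k R) t),
      IsIso f.1 := by
  let := (Spec.preimage (T.isoSpec.inv ≫ t)).hom.toAlgebra
  exact ⟨Γ(T, ⊤), inferInstance, this, ⟨T.isoSpec.inv, (Spec.map_preimage _).symm⟩,
    inferInstanceAs (IsIso T.isoSpec.inv)⟩

/-- A map of spectra over `k` comes from an algebra structure. -/
theorem exists_algebra_specOver {R R' : Type u} [CommRing R] [CommRing R'] [Algebra k R]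
    [Algebra k R'] (f : SchemeHomOver (specMap k R') (specMap k R)) :
    ∃ (_ : Algebra R R') (_ : IsScalarTower k R R'), specOver (k := k) R R' = f := by
  let := (Spec.preimage f.1).hom.toAlgebra
  have h : CommRingCat.ofHom (algebraMap k R) ≫ Spec.preimage f.1 =
      CommRingCat.ofHom (algebraMap k R') := Spec.map_injective (by
    rw [Spec.map_comp, Spec.map_preimage]
    exact f.2)
  have : IsScalarTower k R R' :=
    IsScalarTower.of_algebraMap_eq fun x => (ConcreteCategory.congr_hom h x).symm
  exact ⟨_, this, Subtype.ext (Spec.map_preimage f.1)⟩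

variable [IsAlgClosed k] {C : Scheme.{u}} [IsIntegral C] {c : C ⟶ Spec (CommRingCat.of k)}
  [IsProper c] [SmoothOfRelativeDimension 1 c]

namespace Parameter

variable (p : Parameter c) (R : Type u) [CommRing R] [Algebra k R]

/-- The pullback of functions on the base are the scalars of the presentation. -/
theorem snd_appTop_eq_scalar (a : R) :
    (pullback.snd c (specMap k R)).appTop ((Scheme.ΓSpecIso (CommRingCat.of R)).inv a) =
      (p.charted R).scalar a := by
  refine (p.charted R).eq_scalar ?_ ?_
  · show constHom c R p.open0 a = p.chart0 R (a ⊗ₜ[k] 1)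
    rw [chart0, prodSectionsEquiv, RingEquiv.ofBijective_apply, prodSectionsHom_tmul, map_one,
      map_one, mul_one]
  · show constHom c R p.open1 a = p.chart1 R (a ⊗ₜ[k] 1)
    rw [chart1, prodSectionsEquiv, RingEquiv.ofBijective_apply, prodSectionsHom_tmul, map_one,
      map_one, mul_one]

include p in
/-- The only functions on `C × Spec R` are those on `Spec R`. -/
theorem bijective_snd_appTop : Function.Bijective (pullback.snd c (specMap k R)).appTop := by
  have : Nontrivial p.cover.B0 := inferInstanceAs
    (Nontrivial (regularOff (K := k) ({p.e} : Finset (Place k (CurveField c)))))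
  let e := (Scheme.ΓSpecIso (CommRingCat.of R)).commRingCatIsoToRingEquiv.symm
  have h : ((pullback.snd c (specMap k R)).appTop ∘ e) = (p.charted R).scalar :=
    funext (p.snd_appTop_eq_scalar R)
  refine (Function.Bijective.of_comp_iff _ e.bijective).1 ?_
  rw [h]
  exact (p.charted R).scalar_bijective

end Parameter

/-- The only functions on `C × T` are those on `T`. -/
theorem hasTrivialFunctions (p : Parameter c) : HasTrivialFunctions c := by
  intro T t _
  obtain ⟨R, _, _, f, hf⟩ := exists_specMap_iso t
  have : IsIso (baseChangeSnd c f) := by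
    rw [baseChangeSnd]
    infer_instance
  have hsq : baseChangeSnd c f ≫ pullback.snd c t = pullback.snd c (specMap k R) ≫ f.1 :=
    pullback.lift_snd _ _ _
  have h : (pullback.snd c t).appTop ≫ (baseChangeSnd c f).appTop =
      f.1.appTop ≫ (pullback.snd c (specMap k R)).appTop := by
    rw [← Scheme.Hom.comp_appTop, ← Scheme.Hom.comp_appTop, hsq]
  have : IsIso (pullback.snd c (specMap k R)).appTop :=
    (ConcreteCategory.isIso_iff_bijective _).2 (p.bijective_snd_appTop R)
  have : IsIso f.1.appTop := inferInstanceAs (IsIso (f.1.app ⊤))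
  have : IsIso (baseChangeSnd c f).appTop := inferInstanceAs (IsIso ((baseChangeSnd c f).app ⊤))
  have : IsIso (f.1.appTop ≫ (pullback.snd c (specMap k R)).appTop) := IsIso.comp_isIso
  have : IsIso ((pullback.snd c t).appTop ≫ (baseChangeSnd c f).appTop) := h ▸ inferInstance
  have : IsIso (pullback.snd c t).appTop :=
    IsIso.of_isIso_comp_right _ (baseChangeSnd c f).appTop
  exact ConcreteCategory.bijective_of_isIso _

end Fermat.Agent.Pic
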