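import Fermat.Agent.Pic.Bridge.BaseChange
import Fermat.Agent.Pic.Bridge.DataEquiv
import Fermat.Agent.Pic.Bridge.Functions
import Fermat.Agent.Pic.Repr.Sheaf

/-!
# Euler characteristics of the fibres of a module on `C × T` and the degree condition

The Euler characteristic of the fibres of an invertible module on `C × T` is locally constant on
`T`; the degree zero condition asks that it is that of the structure sheaf at every point.
-/

noncomputable section

universe u

open CategoryTheory CategoryTheory.Limits AlgebraicGeometry AlgebraicCurve TopologicalSpace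
open AlgebraicGeometry.RelPicard NeronModelInfra
open Fermat.Agent.Pic.Cech Fermat.Agent.Pic.Repr Fermat.Agent.Pic.Bridge

namespace Fermat.Agent.Pic

variable {k : Type u} [Field k]

/-- An affine open is a chart. -/
theorem exists_affine_chart_of_open {T : Scheme.{u}} (t : T ⟶ Spec (CommRingCat.of k)) {U : T.Opens}
    (hU : IsAffineOpen U) : ∃ (R : Type u) (_ : CommRing R) (_ : Algebra k R)
      (φ : SchemeHomOver (specMap k R) t), IsOpenImmersion φ.1 ∧ Set.range φ.1 = (U : Set T) := by
  have : IsAffine U.toScheme := hU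
  obtain ⟨R, _, _, f, hf⟩ := exists_specMap_iso (U.ι ≫ t)
  have : IsOpenImmersion (f.1 ≫ U.ι) := inferInstance
  refine ⟨R, _, _, postComp (openOver t U) f, this, ?_⟩
  show Set.range (f.1 ≫ U.ι) = _
  rw [Scheme.Hom.comp_base, TopCat.coe_comp, Set.range_comp,
    Set.range_eq_univ.2 f.1.surjective, Set.image_univ, Scheme.Opens.range_ι]

/-- An affine chart at a point. -/
theorem exists_affine_chart {T : Scheme.{u}} (t : T ⟶ Spec (CommRingCat.of k)) (x : T) :
    ∃ (R : Type u) (_ : CommRing R) (_ : Algebra k R) (φ : SchemeHomOver (specMap k R) t),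
      IsOpenImmersion φ.1 ∧ x ∈ Set.range φ.1 := by
  obtain ⟨_, ⟨U, hU, rfl⟩, hx, -⟩ :=
    T.isBasis_affineOpens.exists_subset_of_mem_open (Set.mem_univ x) isOpen_univ
  obtain ⟨R, _, _, φ, hφ, hr⟩ := exists_affine_chart_of_open t hU
  exact ⟨R, _, _, φ, hφ, hr ▸ hx⟩

/-- A point with values in a field lifts through an open immersion containing its image. -/
theorem exists_lift_field {T T' : Scheme.{u}} {t : T ⟶ Spec (CommRingCat.of k)}
    {t' : T' ⟶ Spec (CommRingCat.of k)} (φ : SchemeHomOver t' t) [IsOpenImmersion φ.1] {K : Type u}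
    [Field K] [Algebra k K] (f : SchemeHomOver (specMap k K) t) (q : Spec (CommRingCat.of K))
    (hq : f.1 q ∈ Set.range φ.1) :
    ∃ g : SchemeHomOver (specMap k K) t', postComp φ g = f := by
  have hr : Set.range f.1 ⊆ Set.range φ.1 := by
    rintro _ ⟨q', rfl⟩
    rwa [Subsingleton.elim q' q]
  refine ⟨⟨IsOpenImmersion.lift φ.1 f.1 hr, ?_⟩, Subtype.ext (IsOpenImmersion.lift_fac _ _ _)⟩
  exact ((congrArg (IsOpenImmersion.lift φ.1 f.1 hr ≫ ·) φ.2.symm).trans
    (Category.assoc _ _ _).symm).trans
      ((congrArg (· ≫ t) (IsOpenImmersion.lift_fac _ _ _)).trans f.2)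

/-- The residue field point at a prime. -/
theorem exists_residue_point {R : Type u} [CommRing R] [Algebra k R] (y : Spec (CommRingCat.of R)) :
    ∃ (K : Type u) (_ : Field K) (_ : Algebra k K) (g : SchemeHomOver (specMap k K) (specMap k R))
      (q : Spec (CommRingCat.of K)), g.1 q = y := by
  let p : PrimeSpectrum R := y
  refine ⟨p.asIdeal.ResidueField, inferInstance, inferInstance,
    specOver (k := k) R p.asIdeal.ResidueField,
    (default : PrimeSpectrum p.asIdeal.ResidueField), ?_⟩
  show (default : PrimeSpectrum p.asIdeal.ResidueField).comap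
    (algebraMap R p.asIdeal.ResidueField) = p
  refine PrimeSpectrum.ext ?_
  show Ideal.comap (algebraMap R p.asIdeal.ResidueField)
    (default : PrimeSpectrum p.asIdeal.ResidueField).asIdeal = p.asIdeal
  rw [show (default : PrimeSpectrum p.asIdeal.ResidueField).asIdeal = ⊥ from
    Ideal.eq_bot_of_prime _]
  exact Ideal.ker_algebraMap_residueField p.asIdeal

section Family

variable {T : Scheme.{u}} {t : T ⟶ Spec (CommRingCat.of k)} {D : Cover k}

/-- The Euler characteristic of a natural family of data is locally constant. -/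
theorem exists_chi_fun_of_data
    (L : ∀ (R : Type u) [CommRing R] [Algebra k R], SchemeHomOver (specMap k R) t → Datum D R)
    (hnat : ∀ (R R' : Type u) [CommRing R] [CommRing R'] [Algebra k R] [Algebra k R']
      [Algebra R R'] [IsScalarTower k R R'] (f : SchemeHomOver (specMap k R) t),
      Nonempty (BaseChange (L R f).toPre (L R' (postComp f (specOver R R'))).toPre)) :
    ∃ r : T → ℤ, IsLocallyConstant r ∧
      ∀ (K : Type u) [Field K] [Algebra k K] (f : SchemeHomOver (specMap k K) t)
        (q : Spec (CommRingCat.of K)), (L K f).toPre.chi = r (f.1 q) := by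
  choose A i1 i2 φ hφ y hy using exists_affine_chart t
  choose rx hrc hrx using fun x => (L (A x) (φ x)).exists_chi
  have hspec : ∀ (x : T) (K : Type u) [Field K] [Algebra k K]
      (g : SchemeHomOver (specMap k K) (specMap k (A x))) (q : Spec (CommRingCat.of K)),
      (L K (postComp (φ x) g)).toPre.chi = rx x (g.1 q) := fun x K _ _ g q => by
    obtain ⟨_, _, rfl⟩ := exists_algebra_specOver g
    exact hrx x K _ (hnat _ _ (φ x)).some q
  have key : ∀ (K : Type u) [Field K] [Algebra k K] (f : SchemeHomOver (specMap k K) t)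
      (q : Spec (CommRingCat.of K)), (L K f).toPre.chi = rx (f.1 q) (y (f.1 q)) := by
    intro K _ _ f q
    obtain ⟨g, hg⟩ := exists_lift_field (φ (f.1 q)) f q ⟨y _, hy _⟩
    have h1 : (φ (f.1 q)).1 (g.1 q) = f.1 q := congrArg (fun ψ => ψ.1 q) hg
    have h2 := hspec (f.1 q) K g q
    rw [hg, (φ (f.1 q)).1.isOpenEmbedding.injective (h1.trans (hy (f.1 q)).symm)] at h2
    exact h2
  refine ⟨fun x => rx x (y x), (IsLocallyConstant.iff_exists_open _).2 fun x => ?_, key⟩
  refine ⟨(φ x).1 '' {z | rx x z = rx x (y x)},
    (φ x).1.isOpenEmbedding.isOpenMap _ ((hrc x).isOpen_fiber _), ⟨y x, rfl, hy x⟩, ?_⟩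
  rintro _ ⟨z, hz, rfl⟩
  obtain ⟨K, _, _, g, q, hg⟩ := exists_residue_point (k := k) z
  have h1 := key K (postComp (φ x) g) q
  rw [hspec x K g q, hg, hz, show (postComp (φ x) g).1 q = (φ x).1 z from congrArg (φ x).1 hg] at h1
  exact h1.symm

end Family

variable [IsAlgClosed k] {C : Scheme.{u}} [IsIntegral C] {c : C ⟶ Spec (CommRingCat.of k)}
  [IsProper c] [SmoothOfRelativeDimension 1 c]

namespace Parameter

variable (p : Parameter c) {T T' : Scheme.{u}} {t : T ⟶ Spec (CommRingCat.of k)}
  {t' : T' ⟶ Spec (CommRingCat.of k)}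

/-- The Euler characteristic of the restriction to a point with values in a field. -/
def chiAt (L : (pullback c t).Modules) (hL : L.IsInvertible) {K : Type u} [Field K] [Algebra k K]
    (f : SchemeHomOver (specMap k K) t) : ℤ :=
  ((p.charted K).toDatum ((Scheme.Modules.pullback (baseChangeSnd c f)).obj L)
    (hL.pullback _)).toPre.chi

theorem chiAt_eq_of_iso {L L' : (pullback c t).Modules} (hL : L.IsInvertible)
    (hL' : L'.IsInvertible) (e : L ≅ L') {K : Type u} [Field K] [Algebra k K]
    (f : SchemeHomOver (specMap k K) t) : p.chiAt L hL f = p.chiAt L' hL' f :=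
  chi_eq_of_equiv (((p.charted K).nonempty_iso_iff _ _).1
    ⟨(Scheme.Modules.pullback (baseChangeSnd c f)).mapIso e⟩).some

theorem chiAt_pullback (L : (pullback c t).Modules) (hL : L.IsInvertible)
    (φ : SchemeHomOver t' t)
      (hL' : ((Scheme.Modules.pullback (baseChangeSnd c φ)).obj L).IsInvertible)
    {K : Type u} [Field K] [Algebra k K] (g : SchemeHomOver (specMap k K) t') :
    p.chiAt ((Scheme.Modules.pullback (baseChangeSnd c φ)).obj L) hL' g =
      p.chiAt L hL (postComp φ g) :=
  chi_eq_of_equiv (((p.charted K).nonempty_iso_iff _ _).1 ⟨pullbackPostComp φ g L⟩).some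

/-- The Euler characteristic of the fibres is a locally constant function on the base. -/
theorem exists_chiAt_fun (L : (pullback c t).Modules) (hL : L.IsInvertible) :
    ∃ r : T → ℤ, IsLocallyConstant r ∧
      ∀ (K : Type u) [Field K] [Algebra k K] (f : SchemeHomOver (specMap k K) t)
        (q : Spec (CommRingCat.of K)), p.chiAt L hL f = r (f.1 q) :=
  exists_chi_fun_of_data
    (fun R _ _ f => (p.charted R).toDatum ((Scheme.Modules.pullback (baseChangeSnd c f)).obj L)
      (hL.pullback _))
    fun R R' _ _ _ _ _ _ f =>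
      ⟨(Charted.nonempty_baseChange (p.isHom_charted R R') (hL.pullback _)).some.trans
        (((p.charted R').nonempty_iso_iff _ _).1 ⟨pullbackPostComp f (specOver R R') L⟩).some⟩

/-- All fibres have degree zero, i.e. the Euler characteristic of the structure sheaf. -/
def FibresDegZero (L : (pullback c t).Modules) (hL : L.IsInvertible) : Prop :=
  ∀ (K : Type u) [Field K] [Algebra k K] (f : SchemeHomOver (specMap k K) t),
    p.chiAt L hL f = (unitPre p.cover k).chi

variable {p}

theorem FibresDegZero.of_iso {L L' : (pullback c t).Modules} {hL : L.IsInvertible}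
    (h : p.FibresDegZero L hL) (hL' : L'.IsInvertible) (e : L ≅ L') : p.FibresDegZero L' hL' :=
  fun K _ _ f => (p.chiAt_eq_of_iso hL hL' e f).symm.trans (h K f)

theorem FibresDegZero.pullback {L : (Limits.pullback c t).Modules} {hL : L.IsInvertible}
    (h : p.FibresDegZero L hL) (φ : SchemeHomOver t' t) :
    p.FibresDegZero ((Scheme.Modules.pullback (baseChangeSnd c φ)).obj L) (hL.pullback _) :=
  fun K _ _ g => (p.chiAt_pullback L hL φ _ g).trans (h K (postComp φ g))

variable (p) (t) in
theorem fibresDegZero_unit :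
    p.FibresDegZero (unitMod (Limits.pullback c t)) (Scheme.Modules.isInvertible_unit _) := by
  intro K _ _ f
  refine (chi_eq_of_equiv ?_).trans (chi_unitPre K)
  exact ((((p.charted K).nonempty_iso_iff _ (Scheme.Modules.isInvertible_unit _)).1
    ⟨Scheme.Modules.pullbackUnitIso _⟩).some.trans
      ((p.charted K).unitEquiv (isLineOn_top (Scheme.Modules.isInvertible_unit _))).symm)

theorem FibresDegZero.of_cover {L : (Limits.pullback c t).Modules} {hL : L.IsInvertible}
    (h : ∀ x : T, ∃ U : T.Opens, x ∈ U ∧
      p.FibresDegZero ((Scheme.Modules.pullback (baseChangeSnd c (openOver t U))).obj L)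
        (hL.pullback _)) : p.FibresDegZero L hL := by
  intro K _ _ f
  obtain ⟨U, hxU, hU⟩ := h (f.1 (default : PrimeSpectrum K))
  have : IsOpenImmersion (openOver t U).1 := inferInstanceAs (IsOpenImmersion U.ι)
  obtain ⟨g, rfl⟩ := exists_lift_field (openOver t U) f (default : PrimeSpectrum K) (by
    show _ ∈ Set.range U.ι
    rw [Scheme.Opens.range_ι]
    exact hxU)
  rw [← p.chiAt_pullback L hL _ (hL.pullback _)]
  exact hU K g

/-- On a connected base one point decides. -/
theorem FibresDegZero.of_point [PreconnectedSpace T] {L : (Limits.pullback c t).Modules}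
    {hL : L.IsInvertible} {K : Type u} [Field K] [Algebra k K] (f : SchemeHomOver (specMap k K) t)
    (h : p.chiAt L hL f = (unitPre p.cover k).chi) : p.FibresDegZero L hL := by
  obtain ⟨r, hr, hf⟩ := p.exists_chiAt_fun L hL
  intro K' _ _ f'
  rw [hf K' f' (default : PrimeSpectrum K'),
    hr.apply_eq_of_preconnectedSpace _ (f.1 (default : PrimeSpectrum K)), ← hf K f, h]

variable (p) (ε : SchemeHomOver (𝟙 (Spec (CommRingCat.of k))) c)

/-- The degree zero condition on rigidified bundles. -/
def degZero : SubPicCondition c ε where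
  P _ M := p.FibresDegZero M.L M.isInvertible
  unit_mem t := p.fibresDegZero_unit t
  congr _ _ M' h hM := hM.of_iso M'.isInvertible h.some
  pullback_mem _ _ φ _ hM := hM.pullback φ

/-- The degree zero condition is Zariski local on the base. -/
theorem isZariskiLocal_degZero : IsZariskiLocal (p.degZero ε) :=
  fun _ _ h => FibresDegZero.of_cover h

end Parameter

end Fermat.Agent.Pic
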