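import Fermat.Agent.Pic.Bridge.ToDatum
import Fermat.Agent.Pic.Cech.Hom

/-!
# Invertible modules are isomorphic iff their data are

An isomorphism of invertible modules gives one of their data, and conversely isomorphic data glue
to an isomorphism of the modules.
-/

noncomputable section

universe u

open CategoryTheory TopologicalSpace Opposite AlgebraicGeometry
open Fermat.Agent.Pic.Cech Fermat.Agent.Pic.Repr

namespace Fermat.Agent.Pic.Bridge.Charted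

variable {k : Type u} [Field k] {C : Cover k} {R : Type u} [CommRing R] [Algebra k R]
  {X : Scheme.{u}} (𝒳 : Charted C R X) {M M' : X.Modules} (hM : IsLineOn M ⊤)
  (hM' : IsLineOn M' ⊤)

/-- A morphism of modules on the data. -/
def toHom (φ : M ⟶ M') : (𝒳.toPre M hM).Hom (𝒳.toPre M' hM') where
  φ0 :=
    { toFun := fun x => 𝒳.sec0 ((LinOn.ofHom φ ⊤).app _ le_top x.val)
      map_add' := fun x y => map_add ((LinOn.ofHom φ ⊤).app _ le_top) x.val y.val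
      map_smul' := fun a x => map_smul ((LinOn.ofHom φ ⊤).app _ le_top) (𝒳.e0 a) x.val }
  φ1 :=
    { toFun := fun x => 𝒳.sec1 ((LinOn.ofHom φ ⊤).app _ le_top x.val)
      map_add' := fun x y => map_add ((LinOn.ofHom φ ⊤).app _ le_top) x.val y.val
      map_smul' := fun a x => map_smul ((LinOn.ofHom φ ⊤).app _ le_top) (𝒳.e1 a) x.val }
  φ01 :=
    { toFun := fun x => 𝒳.sec01 ((LinOn.ofHom φ ⊤).app _ le_top x.val)
      map_add' := fun x y => map_add ((LinOn.ofHom φ ⊤).app _ le_top) x.val y.val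
      map_smul' := fun a x => map_smul ((LinOn.ofHom φ ⊤).app _ le_top) (𝒳.e01 a) x.val }
  comm0 x := (LinOn.ofHom φ ⊤).natural le_top inf_le_left x.val
  comm1 x := (LinOn.ofHom φ ⊤).natural le_top inf_le_right x.val

/-- An isomorphism of modules on the data. -/
def toEquiv (e : M ≅ M') : (𝒳.toPre M hM).Equiv (𝒳.toPre M' hM') where
  e0 := LinearEquiv.ofBijective (𝒳.toHom hM hM' e.hom).φ0
    (LinOn.isIsoOn_ofHom e.hom ⊤ 𝒳.U0 le_top)
  e1 := LinearEquiv.ofBijective (𝒳.toHom hM hM' e.hom).φ1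
    (LinOn.isIsoOn_ofHom e.hom ⊤ 𝒳.U1 le_top)
  e01 := LinearEquiv.ofBijective (𝒳.toHom hM hM' e.hom).φ01
    (LinOn.isIsoOn_ofHom e.hom ⊤ (𝒳.U0 ⊓ 𝒳.U1) le_top)
  comm0 := (𝒳.toHom hM hM' e.hom).comm0
  comm1 := (𝒳.toHom hM hM' e.hom).comm1

include hM in
/-- A map of data comes from a map of modules, given on sections. -/
theorem exists_linOn (h : (𝒳.toPre M hM).Hom (𝒳.toPre M' hM')) :
    ∃ ψ : LinOn ⊤ M M', (∀ m, ψ.app 𝒳.U0 le_top m = (h.φ0 (𝒳.sec0 m)).val) ∧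
      ∀ m, ψ.app 𝒳.U1 le_top m = (h.φ1 (𝒳.sec1 m)).val := by
  let φ0 : Γ(M, 𝒳.U0) →ₗ[Γ(X, 𝒳.U0)] Γ(M', 𝒳.U0) :=
    { toFun := fun m => (h.φ0 (𝒳.sec0 m)).val
      map_add' := fun m n => map_add h.φ0 (𝒳.sec0 m) (𝒳.sec0 n)
      map_smul' := fun a m => by
        obtain ⟨b, rfl⟩ := 𝒳.e0.surjective a
        exact map_smul h.φ0 b (𝒳.sec0 m) }
  let φ1 : Γ(M, 𝒳.U1) →ₗ[Γ(X, 𝒳.U1)] Γ(M', 𝒳.U1) :=
    { toFun := fun m => (h.φ1 (𝒳.sec1 m)).val
      map_add' := fun m n => map_add h.φ1 (𝒳.sec1 m) (𝒳.sec1 n)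
      map_smul' := fun a m => by
        obtain ⟨b, rfl⟩ := 𝒳.e1.surjective a
        exact map_smul h.φ1 b (𝒳.sec1 m) }
  obtain ⟨ψ0, h0⟩ := exists_linOn_app 𝒳.affine0 (hM.mono le_top) φ0
  obtain ⟨ψ1, h1⟩ := exists_linOn_app 𝒳.affine1 (hM.mono le_top) φ1
  have hagree : ∀ z, (ψ0.restrict inf_le_left).app (𝒳.U0 ⊓ 𝒳.U1) le_rfl z =
      (ψ1.restrict inf_le_right).app (𝒳.U0 ⊓ 𝒳.U1) le_rfl z := by
    intro z
    obtain ⟨n, x, hx⟩ := (𝒳.toPre M hM).surj0 (𝒳.sec01 z)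
    obtain ⟨m, y, hy⟩ := (𝒳.toPre M hM).surj1 (𝒳.sec01 z)
    have hx' : 𝒳.e01 (C.T R ^ n) • z = res M inf_le_left x.val := congrArg Sec01.val hx
    have hy' : 𝒳.e01 (C.T' R ^ m) • z = res M inf_le_right y.val := congrArg Sec01.val hy
    have hu : IsUnit (𝒳.e01 (C.T R ^ n * C.T' R ^ m)) :=
      (((IsUnit.of_mul_eq_one _ (C.T_mul_T' R)).pow n).mul
        ((IsUnit.of_mul_eq_one _ (C.T'_mul_T R)).pow m)).map 𝒳.e01
    refine hu.smul_left_cancel.1 ?_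
    have p0 : (ψ0.restrict inf_le_left).app (𝒳.U0 ⊓ 𝒳.U1) le_rfl (𝒳.e01 (C.T R ^ n) • z) =
        (h.φ01 (𝒳.sec01 (𝒳.e01 (C.T R ^ n) • z))).val := by
      rw [hx']
      refine (ψ0.natural le_rfl inf_le_left x.val).trans ?_
      rw [h0]
      exact congrArg Sec01.val (h.comm0 x).symm
    have p1 : (ψ1.restrict inf_le_right).app (𝒳.U0 ⊓ 𝒳.U1) le_rfl (𝒳.e01 (C.T' R ^ m) • z) =
        (h.φ01 (𝒳.sec01 (𝒳.e01 (C.T' R ^ m) • z))).val := by
      rw [hy']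
      refine (ψ1.natural le_rfl inf_le_right y.val).trans ?_
      rw [h1]
      exact congrArg Sec01.val (h.comm1 y).symm
    rw [map_smul, show (h.φ01 (𝒳.sec01 (𝒳.e01 (C.T R ^ n) • z))).val =
      𝒳.e01 (C.T R ^ n) • (h.φ01 (𝒳.sec01 z)).val from congrArg Sec01.val
        (map_smul h.φ01 (C.T R ^ n) (𝒳.sec01 z))] at p0
    rw [map_smul, show (h.φ01 (𝒳.sec01 (𝒳.e01 (C.T' R ^ m) • z))).val =
      𝒳.e01 (C.T' R ^ m) • (h.φ01 (𝒳.sec01 z)).val from congrArg Sec01.val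
        (map_smul h.φ01 (C.T' R ^ m) (𝒳.sec01 z))] at p1
    rw [map_mul 𝒳.e01, mul_smul, mul_smul, p1, smul_comm (𝒳.e01 (C.T R ^ n)),
      smul_comm (𝒳.e01 (C.T R ^ n)), p0]
  let U : ULift.{u} Bool → X.Opens := fun i => if i.down then 𝒳.U0 else 𝒳.U1
  let ψ : ∀ i, LinOn (U i) M M' := fun i => match i with
    | ⟨true⟩ => ψ0
    | ⟨false⟩ => ψ1
  have hext := linOn_ext_affine 𝒳.affine01 (hM.mono le_top) (ψ0.restrict inf_le_left)
    (ψ1.restrict inf_le_right) hagree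
  obtain ⟨Ψ, hΨ⟩ := LinOn.exists_glue (M := M) (N := M') (W := ⊤) U (fun _ => le_top)
    (fun x _ => (𝒳.mem_chart x).elim (fun h => ⟨⟨true⟩, h⟩) fun h => ⟨⟨false⟩, h⟩) ψ
    fun i j V ha hb m => by
      rcases i with ⟨_ | _⟩ <;> rcases j with ⟨_ | _⟩
      · rfl
      · exact (hext V (le_inf hb ha) m).symm
      · exact hext V (le_inf ha hb) m
      · rfl
  refine ⟨Ψ, fun m => ?_, fun m => ?_⟩
  · exact (hΨ ⟨true⟩ 𝒳.U0 le_rfl m).trans (DFunLike.congr_fun h0 m)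
  · exact (hΨ ⟨false⟩ 𝒳.U1 le_rfl m).trans (DFunLike.congr_fun h1 m)

/-- Maps of data agreeing with a global map determine it. -/
theorem linOn_ext (hM : IsLineOn M ⊤) (φ ψ : LinOn ⊤ M M')
    (h0 : ∀ m, φ.app 𝒳.U0 le_top m = ψ.app 𝒳.U0 le_top m)
    (h1 : ∀ m, φ.app 𝒳.U1 le_top m = ψ.app 𝒳.U1 le_top m) (V : X.Opens) (m : Γ(M, V)) :
    φ.app V le_top m = ψ.app V le_top m :=
  eq_of_locally M' _ _ fun x hx => (𝒳.mem_chart x).elim
    (fun h => ⟨V ⊓ 𝒳.U0, inf_le_left, ⟨hx, h⟩, by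
      rw [← φ.natural le_top, ← ψ.natural le_top]
      exact linOn_ext_affine 𝒳.affine0 (hM.mono le_top) (φ.restrict le_top) (ψ.restrict le_top)
        h0 _ inf_le_right _⟩)
    fun h => ⟨V ⊓ 𝒳.U1, inf_le_left, ⟨hx, h⟩, by
      rw [← φ.natural le_top, ← ψ.natural le_top]
      exact linOn_ext_affine 𝒳.affine1 (hM.mono le_top) (φ.restrict le_top) (ψ.restrict le_top)
        h1 _ inf_le_right _⟩

include hM hM' in
/-- Isomorphic data come from isomorphic modules. -/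
theorem nonempty_iso_of_equiv (E : (𝒳.toPre M hM).Equiv (𝒳.toPre M' hM')) :
    Nonempty (M ≅ M') := by
  obtain ⟨f, hf0, hf1⟩ := 𝒳.exists_linOn hM hM' E.toHom
  obtain ⟨g, hg0, hg1⟩ := 𝒳.exists_linOn hM' hM E.symm.toHom
  have h1 := 𝒳.linOn_ext hM (f.comp g) (LinOn.id ⊤ M)
    (fun m => by
      show g.app 𝒳.U0 le_top (f.app 𝒳.U0 le_top m) = m
      rw [hf0, hg0]
      exact congrArg Sec0.val (E.e0.symm_apply_apply (𝒳.sec0 m)))
    (fun m => by
      show g.app 𝒳.U1 le_top (f.app 𝒳.U1 le_top m) = m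
      rw [hf1, hg1]
      exact congrArg Sec1.val (E.e1.symm_apply_apply (𝒳.sec1 m)))
  have h2 := 𝒳.linOn_ext hM' (g.comp f) (LinOn.id ⊤ M')
    (fun m => by
      show f.app 𝒳.U0 le_top (g.app 𝒳.U0 le_top m) = m
      rw [hg0, hf0]
      exact congrArg Sec0.val (E.e0.apply_symm_apply (𝒳.sec0 m)))
    (fun m => by
      show f.app 𝒳.U1 le_top (g.app 𝒳.U1 le_top m) = m
      rw [hg1, hf1]
      exact congrArg Sec1.val (E.e1.apply_symm_apply (𝒳.sec1 m)))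
  have := f.isIso_toHom fun V hV =>
    ⟨Function.LeftInverse.injective (g := g.app V hV) fun m => h1 V m,
      Function.RightInverse.surjective (g := g.app V hV) fun m => h2 V m⟩
  exact ⟨asIso f.toHom⟩

/-- Invertible modules are isomorphic iff their data are. -/
theorem nonempty_iso_iff {M M' : X.Modules} (hM : M.IsInvertible) (hM' : M'.IsInvertible) :
    Nonempty (M ≅ M') ↔
      Nonempty ((𝒳.toDatum M hM).toPre.Equiv (𝒳.toDatum M' hM').toPre) :=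
  ⟨fun ⟨e⟩ => ⟨𝒳.toEquiv (isLineOn_top hM) (isLineOn_top hM') e⟩,
    fun ⟨E⟩ => 𝒳.nonempty_iso_of_equiv (isLineOn_top hM) (isLineOn_top hM') E⟩

/-- The datum of the structure sheaf. -/
def unitEquiv (h : IsLineOn (unitMod X) ⊤) : (unitPre C R).Equiv (𝒳.toPre (unitMod X) h) where
  e0 :=
    { toFun := fun a => 𝒳.sec0 (M := unitMod X) (𝒳.e0 a)
      map_add' := fun a b => map_add 𝒳.e0 a b
      map_smul' := fun a b => map_mul 𝒳.e0 a b
      invFun := fun x => 𝒳.e0.symm x.val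
      left_inv := fun a => 𝒳.e0.symm_apply_apply a
      right_inv := fun x => 𝒳.e0.apply_symm_apply x.val }
  e1 :=
    { toFun := fun a => 𝒳.sec1 (M := unitMod X) (𝒳.e1 a)
      map_add' := fun a b => map_add 𝒳.e1 a b
      map_smul' := fun a b => map_mul 𝒳.e1 a b
      invFun := fun x => 𝒳.e1.symm x.val
      left_inv := fun a => 𝒳.e1.symm_apply_apply a
      right_inv := fun x => 𝒳.e1.apply_symm_apply x.val }
  e01 :=
    { toFun := fun a => 𝒳.sec01 (M := unitMod X) (𝒳.e01 a)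
      map_add' := fun a b => map_add 𝒳.e01 a b
      map_smul' := fun a b => map_mul 𝒳.e01 a b
      invFun := fun x => 𝒳.e01.symm x.val
      left_inv := fun a => 𝒳.e01.symm_apply_apply a
      right_inv := fun x => 𝒳.e01.apply_symm_apply x.val }
  comm0 a := (𝒳.res0 a).symm
  comm1 a := (𝒳.res1 a).symm

end Fermat.Agent.Pic.Bridge.Charted
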