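import Fermat.Agent.Pic.Bridge.Affine
import Fermat.Agent.Pic.Bridge.Charted
import Fermat.Agent.Pic.Cech.Twists

/-!
# The gluing datum of an invertible module on a presented scheme

The sections of an invertible module over the two charts and the overlap, with their restrictions,
form a datum.
-/

noncomputable section

universe u

open CategoryTheory TopologicalSpace Opposite AlgebraicGeometry
open Fermat.Agent.Pic.Cech Fermat.Agent.Pic.Repr

namespace Fermat.Agent.Pic.Bridge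

/-- `exists_res_eq_pow_smul` for an open equal to a basic open. -/
theorem exists_res_eq_pow_smul_of_eq {X : Scheme.{u}} {M : X.Modules} {U D : X.Opens}
    (hU : IsAffineOpen U) (hM : IsLineOn M U) (f : Γ(X, U)) (hD : D = X.basicOpen f) (hDU : D ≤ U)
    (z : Γ(M, D)) : ∃ (n : ℕ) (s : Γ(M, U)), res M hDU s = resF hDU f ^ n • z := by
  subst hD
  exact exists_res_eq_pow_smul hU hM f z

/-- `exists_pow_smul_eq_zero` for an open equal to a basic open. -/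
theorem exists_pow_smul_eq_zero_of_eq {X : Scheme.{u}} {M : X.Modules} {U D : X.Opens}
    (hU : IsAffineOpen U) (hM : IsLineOn M U) (f : Γ(X, U)) (hD : D = X.basicOpen f) (hDU : D ≤ U)
    (m : Γ(M, U)) (hm : res M hDU m = 0) : ∃ n : ℕ, f ^ n • m = 0 := by
  subst hD
  exact exists_pow_smul_eq_zero hU hM f m hm

/-- Invertibility is preserved by a change of rings along an isomorphism. -/
theorem invertible_of_equiv {A B N N' : Type u} [CommRing A] [CommRing B] [AddCommGroup N]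
    [AddCommGroup N'] [Module A N] [Module B N'] (e : A ≃+* B) (ψ : N ≃+ N')
    (h : ∀ (a : A) (x : N), ψ (a • x) = e a • ψ x) [Module.Invertible B N'] :
    Module.Invertible A N := by
  let := e.symm.toRingHom.toAlgebra
  let := Module.compHom N e.symm.toRingHom
  have : IsScalarTower B A N := ⟨fun b a x => by
    show (e.symm b * a) • x = e.symm b • a • x
    rw [mul_smul]⟩
  have : IsLocalization (⊥ : Submonoid B) A := by
    refine ⟨⟨fun ⟨y, hy⟩ => ?_, fun z => ⟨⟨e z, 1⟩, ?_⟩, fun {x y} hxy => ⟨1, ?_⟩⟩⟩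
    · rw [Submonoid.mem_bot] at hy
      subst hy
      simp
    · show z * e.symm 1 = e.symm (e z)
      simp
    · show (1 : B) * x = 1 * y
      rw [e.symm.injective hxy]
  let f : N' →ₗ[B] N :=
    { toFun := ψ.symm
      map_add' := map_add ψ.symm
      map_smul' := fun b x => ψ.injective (by
        show ψ (ψ.symm (b • x)) = ψ (e.symm b • ψ.symm x)
        rw [h, RingEquiv.apply_symm_apply, AddEquiv.apply_symm_apply, AddEquiv.apply_symm_apply]) }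
  have : IsLocalizedModule (⊥ : Submonoid B) f := by
    refine ⟨fun ⟨y, hy⟩ => ?_, fun x => ⟨⟨ψ x, 1⟩, ?_⟩, fun {x y} hxy => ⟨1, ?_⟩⟩
    · rw [Submonoid.mem_bot] at hy
      subst hy
      exact (map_one (algebraMap B (Module.End B N))).symm ▸ isUnit_one
    · show (1 : B) • x = ψ.symm (ψ x)
      rw [one_smul, AddEquiv.symm_apply_apply]
    · rw [ψ.symm.injective hxy]
  exact Module.Invertible.of_isLocalization ⊥ f

namespace Charted

variable {k : Type u} [Field k] {C : Cover k} {R : Type u} [CommRing R] [Algebra k R]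
  {X : Scheme.{u}} (𝒳 : Charted C R X) (M : X.Modules)

theorem affine01 : IsAffineOpen (𝒳.U0 ⊓ 𝒳.U1) := 𝒳.basic0 ▸ 𝒳.affine0.basicOpen _

/-- Sections over the first chart. -/
def Sec0 : Type u := Γ(M, 𝒳.U0)

/-- Sections over the second chart. -/
def Sec1 : Type u := Γ(M, 𝒳.U1)

/-- Sections over the overlap. -/
def Sec01 : Type u := Γ(M, 𝒳.U0 ⊓ 𝒳.U1)

instance : AddCommGroup (𝒳.Sec0 M) := inferInstanceAs (AddCommGroup Γ(M, 𝒳.U0))
instance : AddCommGroup (𝒳.Sec1 M) := inferInstanceAs (AddCommGroup Γ(M, 𝒳.U1))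
instance : AddCommGroup (𝒳.Sec01 M) := inferInstanceAs (AddCommGroup Γ(M, 𝒳.U0 ⊓ 𝒳.U1))
instance : Module (C.RB0 R) (𝒳.Sec0 M) := Module.compHom (R := Γ(X, 𝒳.U0)) Γ(M, 𝒳.U0) 𝒳.e0.toRingHom
instance : Module (C.RB1 R) (𝒳.Sec1 M) := Module.compHom (R := Γ(X, 𝒳.U1)) Γ(M, 𝒳.U1) 𝒳.e1.toRingHom
instance : Module (C.RB01 R) (𝒳.Sec01 M) :=
  Module.compHom (R := Γ(X, 𝒳.U0 ⊓ 𝒳.U1)) Γ(M, 𝒳.U0 ⊓ 𝒳.U1) 𝒳.e01.toRingHom
instance : Module R (𝒳.Sec0 M) := Module.compHom _ (algebraMap R (C.RB0 R))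
instance : Module R (𝒳.Sec1 M) := Module.compHom _ (algebraMap R (C.RB1 R))
instance : Module R (𝒳.Sec01 M) := Module.compHom _ (algebraMap R (C.RB01 R))
instance : IsScalarTower R (C.RB0 R) (𝒳.Sec0 M) := ⟨fun a b x => by
  show (a • b) • x = algebraMap R (C.RB0 R) a • b • x
  rw [Algebra.smul_def, mul_smul]⟩
instance : IsScalarTower R (C.RB1 R) (𝒳.Sec1 M) := ⟨fun a b x => by
  show (a • b) • x = algebraMap R (C.RB1 R) a • b • x
  rw [Algebra.smul_def, mul_smul]⟩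
instance : IsScalarTower R (C.RB01 R) (𝒳.Sec01 M) := ⟨fun a b x => by
  show (a • b) • x = algebraMap R (C.RB01 R) a • b • x
  rw [Algebra.smul_def, mul_smul]⟩

variable {M}

/-- A section over the first chart, as such. -/
def sec0 (m : Γ(M, 𝒳.U0)) : 𝒳.Sec0 M := m

/-- A section over the second chart, as such. -/
def sec1 (m : Γ(M, 𝒳.U1)) : 𝒳.Sec1 M := m

/-- A section over the overlap, as such. -/
def sec01 (m : Γ(M, 𝒳.U0 ⊓ 𝒳.U1)) : 𝒳.Sec01 M := m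

variable {𝒳}

/-- The underlying section. -/
def Sec0.val (x : 𝒳.Sec0 M) : Γ(M, 𝒳.U0) := x

/-- The underlying section. -/
def Sec1.val (x : 𝒳.Sec1 M) : Γ(M, 𝒳.U1) := x

/-- The underlying section. -/
def Sec01.val (x : 𝒳.Sec01 M) : Γ(M, 𝒳.U0 ⊓ 𝒳.U1) := x

theorem Sec0.val_smul (a : C.RB0 R) (x : 𝒳.Sec0 M) : (a • x).val = 𝒳.e0 a • x.val := rfl
theorem Sec1.val_smul (a : C.RB1 R) (x : 𝒳.Sec1 M) : (a • x).val = 𝒳.e1 a • x.val := rfl
theorem Sec01.val_smul (a : C.RB01 R) (x : 𝒳.Sec01 M) : (a • x).val = 𝒳.e01 a • x.val := rfl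

variable (𝒳)

/-- Restriction from the first chart. -/
def resSec0 (M : X.Modules) : 𝒳.Sec0 M →ₛₗ[(C.ρ0 R).toRingHom] 𝒳.Sec01 M where
  toFun x := 𝒳.sec01 (res M inf_le_left x.val)
  map_add' x y := res_add M _ x.val y.val
  map_smul' a x := (res_smul M _ (𝒳.e0 a) x.val).trans (congrArg (· • _) (𝒳.res0 a))

/-- Restriction from the second chart. -/
def resSec1 (M : X.Modules) : 𝒳.Sec1 M →ₛₗ[(C.ρ1 R).toRingHom] 𝒳.Sec01 M where
  toFun x := 𝒳.sec01 (res M inf_le_right x.val)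
  map_add' x y := res_add M _ x.val y.val
  map_smul' a x := (res_smul M _ (𝒳.e1 a) x.val).trans (congrArg (· • _) (𝒳.res1 a))

theorem resF_e0_T0 :
    resF (inf_le_left : 𝒳.U0 ⊓ 𝒳.U1 ≤ 𝒳.U0) (𝒳.e0 (C.T0 R)) = 𝒳.e01 (C.T R) :=
  (𝒳.res0 _).trans (congrArg _ (C.ρ0_T0 R))

theorem resF_e1_T1 :
    resF (inf_le_right : 𝒳.U0 ⊓ 𝒳.U1 ≤ 𝒳.U1) (𝒳.e1 (C.T1 R)) = 𝒳.e01 (C.T' R) :=
  (𝒳.res1 _).trans (congrArg _ (C.ρ1_T1 R))

/-- The modules of sections. -/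
def toPre (M : X.Modules) (hM : IsLineOn M ⊤) : Pre C R where
  N0 := 𝒳.Sec0 M
  N1 := 𝒳.Sec1 M
  N01 := 𝒳.Sec01 M
  f0 := 𝒳.resSec0 M
  f1 := 𝒳.resSec1 M
  surj0 z := by
    obtain ⟨n, s, hs⟩ := exists_res_eq_pow_smul_of_eq 𝒳.affine0 (hM.mono le_top) _ 𝒳.basic0
      inf_le_left z.val
    refine ⟨n, 𝒳.sec0 s, (show res M inf_le_left s = (C.T R ^ n • z).val from ?_).symm⟩
    rw [hs, Sec01.val_smul, map_pow, resF_e0_T0]
  surj1 z := by
    obtain ⟨n, s, hs⟩ := exists_res_eq_pow_smul_of_eq 𝒳.affine1 (hM.mono le_top) _ 𝒳.basic1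
      inf_le_right z.val
    refine ⟨n, 𝒳.sec1 s, (show res M inf_le_right s = (C.T' R ^ n • z).val from ?_).symm⟩
    rw [hs, Sec01.val_smul, map_pow, resF_e1_T1]
  ker0 x hx := by
    obtain ⟨n, hn⟩ := exists_pow_smul_eq_zero_of_eq 𝒳.affine0 (hM.mono le_top) _ 𝒳.basic0
      inf_le_left x.val hx
    exact ⟨n, (show (C.T0 R ^ n • x).val = 0 by rw [Sec0.val_smul, map_pow, hn])⟩
  ker1 x hx := by
    obtain ⟨n, hn⟩ := exists_pow_smul_eq_zero_of_eq 𝒳.affine1 (hM.mono le_top) _ 𝒳.basic1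
      inf_le_right x.val hx
    exact ⟨n, (show (C.T1 R ^ n • x).val = 0 by rw [Sec1.val_smul, map_pow, hn])⟩

theorem invertible_sec0 (hM : IsLineOn M ⊤) : Module.Invertible (C.RB0 R) (𝒳.Sec0 M) :=
  have := module_invertible 𝒳.affine0 (hM.mono le_top)
  invertible_of_equiv (B := Γ(X, 𝒳.U0)) (N' := Γ(M, 𝒳.U0)) 𝒳.e0 (AddEquiv.refl _) fun _ _ => rfl

theorem invertible_sec1 (hM : IsLineOn M ⊤) : Module.Invertible (C.RB1 R) (𝒳.Sec1 M) :=
  have := module_invertible 𝒳.affine1 (hM.mono le_top)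
  invertible_of_equiv (B := Γ(X, 𝒳.U1)) (N' := Γ(M, 𝒳.U1)) 𝒳.e1 (AddEquiv.refl _) fun _ _ => rfl

/-- The gluing datum of an invertible module. -/
def toDatum (M : X.Modules) (hM : M.IsInvertible) : Datum C R where
  toPre := 𝒳.toPre M (isLineOn_top hM)
  invertible0 := 𝒳.invertible_sec0 (isLineOn_top hM)
  invertible1 := 𝒳.invertible_sec1 (isLineOn_top hM)

theorem mem_chart (x : X) : x ∈ 𝒳.U0 ∨ x ∈ 𝒳.U1 :=
  (Opens.mem_sup).1 (show x ∈ 𝒳.U0 ⊔ 𝒳.U1 by rw [𝒳.cover]; trivial)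

theorem eq_of_res_eq (M : X.Modules) {m m' : Γ(M, ⊤)}
    (h0 : res M (le_top : 𝒳.U0 ≤ ⊤) m = res M le_top m')
    (h1 : res M (le_top : 𝒳.U1 ≤ ⊤) m = res M le_top m') : m = m' :=
  eq_of_locally M _ _ fun x _ => (𝒳.mem_chart x).elim
    (fun h => ⟨_, le_top, h, h0⟩) fun h => ⟨_, le_top, h, h1⟩

theorem exists_res_eq (M : X.Modules) (a : Γ(M, 𝒳.U0)) (b : Γ(M, 𝒳.U1))
    (h : res M inf_le_left a = res M (inf_le_right : 𝒳.U0 ⊓ 𝒳.U1 ≤ _) b) :
    ∃ m : Γ(M, ⊤), res M (le_top : 𝒳.U0 ≤ ⊤) m = a ∧ res M (le_top : 𝒳.U1 ≤ ⊤) m = b := by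
  let U : ULift.{u} Bool → X.Opens := fun i => if i.down then 𝒳.U0 else 𝒳.U1
  let s : ∀ i, Γ(M, U i) := fun i => match i with
    | ⟨true⟩ => a
    | ⟨false⟩ => b
  obtain ⟨m, hm⟩ := Repr.exists_glue M U (fun _ => le_top)
    (fun x _ => (𝒳.mem_chart x).elim (fun h => ⟨⟨true⟩, h⟩) fun h => ⟨⟨false⟩, h⟩) s
    fun i j => by
      rcases i with ⟨_ | _⟩ <;> rcases j with ⟨_ | _⟩
      · rfl
      · have h' := congrArg (res M (le_inf inf_le_right inf_le_left :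
          U ⟨false⟩ ⊓ U ⟨true⟩ ≤ 𝒳.U0 ⊓ 𝒳.U1)) h
        rw [res_res, res_res] at h'
        exact h'.symm
      · exact h
      · rfl
  exact ⟨m, hm ⟨true⟩, hm ⟨false⟩⟩

theorem exists_scalar (a : R) : ∃ r : Γ(X, ⊤),
    resF (le_top : 𝒳.U0 ≤ ⊤) r = 𝒳.e0 (algebraMap R _ a) ∧
      resF (le_top : 𝒳.U1 ≤ ⊤) r = 𝒳.e1 (algebraMap R _ a) :=
  𝒳.exists_res_eq (unitMod X) (𝒳.e0 (algebraMap R _ a)) (𝒳.e1 (algebraMap R _ a)) (by
    show resF inf_le_left (𝒳.e0 _) = resF inf_le_right (𝒳.e1 _)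
    rw [𝒳.res0, 𝒳.res1, AlgHom.commutes, AlgHom.commutes])

theorem scalar_ext {r r' : Γ(X, ⊤)} (h0 : resF (le_top : 𝒳.U0 ≤ ⊤) r = resF le_top r')
    (h1 : resF (le_top : 𝒳.U1 ≤ ⊤) r = resF le_top r') : r = r' :=
  𝒳.eq_of_res_eq (unitMod X) h0 h1

/-- The scalars as global functions. -/
def scalar : R →+* Γ(X, ⊤) where
  toFun a := (𝒳.exists_scalar a).choose
  map_one' := by
    obtain ⟨h0, h1⟩ := (𝒳.exists_scalar 1).choose_spec
    refine 𝒳.scalar_ext ?_ ?_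
    · rw [h0, map_one, map_one, resF_one]
    · rw [h1, map_one, map_one, resF_one]
  map_mul' a b := by
    obtain ⟨h0, h1⟩ := (𝒳.exists_scalar (a * b)).choose_spec
    obtain ⟨a0, a1⟩ := (𝒳.exists_scalar a).choose_spec
    obtain ⟨b0, b1⟩ := (𝒳.exists_scalar b).choose_spec
    refine 𝒳.scalar_ext ?_ ?_
    · rw [h0, resF_mul, a0, b0, map_mul, map_mul]
    · rw [h1, resF_mul, a1, b1, map_mul, map_mul]
  map_zero' := by
    obtain ⟨h0, h1⟩ := (𝒳.exists_scalar 0).choose_spec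
    refine 𝒳.scalar_ext ?_ ?_
    · rw [h0, map_zero, map_zero, resF_zero]
    · rw [h1, map_zero, map_zero, resF_zero]
  map_add' a b := by
    obtain ⟨h0, h1⟩ := (𝒳.exists_scalar (a + b)).choose_spec
    obtain ⟨a0, a1⟩ := (𝒳.exists_scalar a).choose_spec
    obtain ⟨b0, b1⟩ := (𝒳.exists_scalar b).choose_spec
    refine 𝒳.scalar_ext ?_ ?_
    · rw [h0, resF_add, a0, b0, map_add, map_add]
    · rw [h1, resF_add, a1, b1, map_add, map_add]

theorem resF_scalar0 (a : R) :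
    resF (le_top : 𝒳.U0 ≤ ⊤) (𝒳.scalar a) = 𝒳.e0 (algebraMap R _ a) :=
  (𝒳.exists_scalar a).choose_spec.1

theorem resF_scalar1 (a : R) :
    resF (le_top : 𝒳.U1 ≤ ⊤) (𝒳.scalar a) = 𝒳.e1 (algebraMap R _ a) :=
  (𝒳.exists_scalar a).choose_spec.2

theorem eq_scalar {a : R} {r : Γ(X, ⊤)}
    (h0 : resF (le_top : 𝒳.U0 ≤ ⊤) r = 𝒳.e0 (algebraMap R _ a))
    (h1 : resF (le_top : 𝒳.U1 ≤ ⊤) r = 𝒳.e1 (algebraMap R _ a)) : r = 𝒳.scalar a :=
  𝒳.scalar_ext (h0.trans (𝒳.resF_scalar0 a).symm) (h1.trans (𝒳.resF_scalar1 a).symm)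

/-- Global functions are the scalars. -/
theorem scalar_bijective [Nontrivial C.B0] : Function.Bijective 𝒳.scalar := by
  refine ⟨fun a b h => ?_, fun r => ?_⟩
  · have h' := congrArg (resF (le_top : 𝒳.U0 ≤ ⊤)) h
    rw [resF_scalar0, resF_scalar0] at h'
    exact Algebra.TensorProduct.includeLeft_injective (S := R)
      (FaithfulSMul.algebraMap_injective k C.B0) (𝒳.e0.injective h')
  · have hq : ((𝒳.e0.symm (resF (le_top : 𝒳.U0 ≤ ⊤) r), 𝒳.e1.symm (resF (le_top : 𝒳.U1 ≤ ⊤) r)) :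
        (unitPre C R).N0 × (unitPre C R).N1) ∈ (unitPre C R).H0 := by
      refine (Pre.mem_H0 _).2 (𝒳.e01.injective ?_)
      show 𝒳.e01 (C.ρ0 R _) = 𝒳.e01 (C.ρ1 R _)
      rw [← 𝒳.res0, ← 𝒳.res1, RingEquiv.apply_symm_apply, RingEquiv.apply_symm_apply, resF_resF,
        resF_resF]
    obtain ⟨a, ha⟩ := (unitPre_H0_eq _).1 hq
    exact ⟨a, (𝒳.eq_scalar ((RingEquiv.symm_apply_eq _).1 (congrArg Prod.fst ha))
      ((RingEquiv.symm_apply_eq _).1 (congrArg Prod.snd ha))).symm⟩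

end Charted

end Fermat.Agent.Pic.Bridge
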